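import Mathlib

set_option autoImplicit false

/-!
# The addition-subtraction map on x-coordinates really computes `x(P+Q), x(P-Q)`
-/

namespace Fermat.Agent.FrobChar

open WeierstrassCurve WeierstrassCurve.Affine MvPolynomial

section scalar

variable {F : Type*} [Field F]

lemma dbl_scalar (a1 a2 a3 a4 a6 x y ℓ : F)
    (hℓ : (2*y+a1*x+a3)*ℓ = 3*x^2+2*a2*x+a4-a1*y)
    (e : y^2+a1*x*y+a3*y = x^3+a2*x^2+a4*x+a6) :
    (x*x)^2 - (2*a4+a1*a3)*(x*x) - (a3^2+4*a6)*(x+x) -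
        (a1 ^ 2 * a6 + 4 * a2 * a6 - a1 * a3 * a4 + a2 * a3 ^ 2 - a4 ^ 2) =
      (2*y+a1*x+a3)^2*(ℓ^2+a1*ℓ-a2-x-x) := by
  linear_combination (a1^2+4*(a2+2*x))*e -
    ((2*y+a1*x+a3)*ℓ+(3*x^2+2*a2*x+a4-a1*y)+a1*(2*y+a1*x+a3))*hℓ

lemma sec_sum (a1 a2 a3 a4 a6 x1 y1 x2 y2 ℓ ℓ' : F)
    (hℓ : (x1-x2)*ℓ = y1-y2)
    (hℓ' : (x1-x2)*ℓ' = y1-(-y2-a1*x2-a3))
    (e1 : y1^2+a1*x1*y1+a3*y1 = x1^3+a2*x1^2+a4*x1+a6)
    (e2 : y2^2+a1*x2*y2+a3*y2 = x2^3+a2*x2^2+a4*x2+a6) :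
    2 * (x1+x2) * (x1*x2) + (a1 ^ 2 + 4 * a2) * (x1*x2) + (2*a4+a1*a3)*(x1+x2) + (a3^2+4*a6) =
      (x1-x2)^2*((ℓ^2+a1*ℓ-a2-x1-x2) + (ℓ'^2+a1*ℓ'-a2-x1-x2)) := by
  grind

lemma sec_prod (a1 a2 a3 a4 a6 x1 y1 x2 y2 ℓ ℓ' : F)
    (hx : x1 - x2 ≠ 0)
    (hℓ : (x1-x2)*ℓ = y1-y2)
    (hℓ' : (x1-x2)*ℓ' = y1-(-y2-a1*x2-a3))
    (e1 : y1^2+a1*x1*y1+a3*y1 = x1^3+a2*x1^2+a4*x1+a6)
    (e2 : y2^2+a1*x2*y2+a3*y2 = x2^3+a2*x2^2+a4*x2+a6) :
    (x1*x2)^2 - (2*a4+a1*a3)*(x1*x2) - (a3^2+4*a6)*(x1+x2) -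
        (a1 ^ 2 * a6 + 4 * a2 * a6 - a1 * a3 * a4 + a2 * a3 ^ 2 - a4 ^ 2) =
      (x1-x2)^2*((ℓ^2+a1*ℓ-a2-x1-x2) * (ℓ'^2+a1*ℓ'-a2-x1-x2)) := by
  obtain ⟨d, rfl⟩ : ∃ d, x1 = x2 + d := ⟨x1 - x2, by ring⟩
  have hd : d ≠ 0 := by simpa using hx
  have hℓ1 : ℓ = (y1 - y2)/d := by
    field_simp; linear_combination hℓ
  have hℓ2 : ℓ' = (y1-(-y2-a1*x2-a3))/d := by
    field_simp; linear_combination hℓ'
  have h4 : a4 = (y1^2-y2^2+a1*((x2+d)*y1-x2*y2)+a3*(y1-y2)-((x2+d)^3-x2^3)-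
      a2*((x2+d)^2-x2^2))/d := by
    field_simp
    linear_combination e2 - e1
  have h6 : a6 = y2^2+a1*x2*y2+a3*y2 - x2^3-a2*x2^2-a4*x2 := by
    linear_combination -e2
  subst h6 
  clear e1 e2 hℓ hℓ' hx
  subst hℓ1 hℓ2
  rw [h4]
  clear h4
  field_simp
  ring

end scalar

section evalLemmas

variable {R : Type*} [CommRing R] (W : WeierstrassCurve R)

lemma addSubMap_eval (z : Fin 3 → R) :
    (fun i => (addSubMap W i).eval z) =
      ![z 0 ^ 2 - W.b₄ * z 0 * z 2 - W.b₆ * z 1 * z 2 - W.b₈ * z 2 ^ 2,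
        2 * z 1 * z 0 + W.b₂ * z 0 * z 2 + W.b₄ * z 1 * z 2 + W.b₆ * z 2 ^ 2,
        z 1 ^ 2 - 4 * z 0 * z 2] := by
  ext i
  fin_cases i <;> simp [addSubMap]

end evalLemmas

variable {F : Type*} [Field F] [DecidableEq F]

/-- The duplication case. -/
lemma exists_addSubMap_dbl (W : Affine F) [W.IsElliptic] {x y : F} (h : W.Nonsingular x y) :
    ∃ c : F, c ≠ 0 ∧ 
      ![(x*x) ^ 2 - W.b₄ * (x*x) - W.b₆ * (x+x) - W.b₈,
        2 * (x+x) * (x*x) + W.b₂ * (x*x) + W.b₄ * (x+x) + W.b₆,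
        (x+x) ^ 2 - 4 * (x*x)] = c • Point.sym2x (Point.some x y h + Point.some x y h) 0 := by
  have e₁ := (equation_iff ..).mp h.1
  have hne := addSubMap_ne_zero W (Point.sym2x_ne_zero (Point.some x y h) (Point.some x y h))
  rw [addSubMap_eval] at hne
  by_cases hy : y = W.negY x y
  · rw [Point.add_self_of_Y_eq hy]
    have hψ : 2 * y + W.a₁ * x + W.a₃ = 0 := by
      simp only [negY] at hy
      linear_combination hy
    have h0 : 2 * (x+x) * (x*x) + W.b₂ * (x*x) + W.b₄ * (x+x) + W.b₆ = 0 := by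
      simp only [b₂, b₄, b₆]
      linear_combination (2 * y + W.a₁ * x + W.a₃) * hψ - 4 * e₁
    refine ⟨(x*x) ^ 2 - W.b₄ * (x*x) - W.b₆ * (x+x) - W.b₈, ?_, ?_⟩
    · intro h1
      apply hne
      simp only [Point.sym2x_some_some]
      ext i
      fin_cases i
      · simp
        linear_combination h1
      · simp
        linear_combination h0
      · simp
        ring
    · ext i
      fin_cases i
      · simp
      · simp
        linear_combination h0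
      · simp
        ring
  · rw [Point.add_self_of_Y_ne hy]
    have hψ : 2 * y + W.a₁ * x + W.a₃ ≠ 0 := by
      intro h
      apply hy
      simp only [negY]
      linear_combination h
    refine ⟨(2 * y + W.a₁ * x + W.a₃) ^ 2, pow_ne_zero _ hψ, ?_⟩
    have hℓ : (2 * y + W.a₁ * x + W.a₃) * W.slope x x y y =
        3 * x ^ 2 + 2 * W.a₂ * x + W.a₄ - W.a₁ * y := by
      rw [slope_of_Y_ne rfl hy]
      have : y - W.negY x y = 2 * y + W.a₁ * x + W.a₃ := by simp only [negY]; ring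
      rw [this]
      field_simp
    have h1 := dbl_scalar _ _ _ _ _ _ _ _ hℓ e₁
    ext i
    fin_cases i
    · simp only [Point.sym2x_some_zero, addX, b₂, b₄, b₆, b₈] at h1 ⊢
      simp
      linear_combination h1
    · simp [b₂, b₄, b₆]
      linear_combination -4 * e₁
    · simp
      ring

theorem exists_addSubMap_sym2x (W : Affine F) [W.IsElliptic] (P Q : W.Point) :
    ∃ c : F, c ≠ 0 ∧
      (fun i => (addSubMap W i).eval (Point.sym2x P Q)) = c • Point.sym2x (P + Q) (P - Q) := by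
  rw [addSubMap_eval]
  match P, Q with
  | 0, 0 => 
    refine ⟨1, one_ne_zero, ?_⟩
    simp
  | 0, Point.some x y h =>
    refine ⟨1, one_ne_zero, ?_⟩
    rw [zero_add, zero_sub, Point.sym2x_neg_right]
    simp
    constructor <;> ring
  | Point.some x y h, 0 =>
    refine ⟨1, one_ne_zero, ?_⟩
    rw [add_zero, sub_zero]
    simp
    constructor <;> ring
  | Point.some x₁ y₁ h₁, Point.some x₂ y₂ h₂ =>
    have e₁ := (equation_iff ..).mp h₁.1
    have e₂ := (equation_iff ..).mp h₂.1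
    by_cases hx : x₁ = x₂
    · subst hx
      obtain ⟨c, hc, hc'⟩ := exists_addSubMap_dbl W h₁
      refine ⟨c, hc, ?_⟩
      have hPQ : Point.some x₁ y₂ h₂ = Point.some x₁ y₁ h₁ ∨ 
          Point.some x₁ y₂ h₂ = -Point.some x₁ y₁ h₁ := Point.X_eq_iff.mp rfl
      have hsym : Point.sym2x (Point.some x₁ y₁ h₁ + Point.some x₁ y₂ h₂) 
          (Point.some x₁ y₁ h₁ - Point.some x₁ y₂ h₂) = 
          Point.sym2x (Point.some x₁ y₁ h₁ + Point.some x₁ y₁ h₁) 0 := by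
        rcases hPQ with h | h
        · rw [h, sub_self]
        · rw [h, add_neg_cancel, sub_neg_eq_add, Point.sym2x_comm]
      rw [hsym, ← hc']
      simp only [Point.sym2x_some_some]
      ext i
      fin_cases i <;> simp
    · have hx' : x₁ - x₂ ≠ 0 := sub_ne_zero.mpr hx
      refine ⟨(x₁ - x₂) ^ 2, pow_ne_zero _ hx', ?_⟩
      rw [sub_eq_add_neg (Point.some x₁ y₁ h₁), Point.neg_some, Point.add_of_X_ne hx,
        Point.add_of_X_ne hx]
      simp only [Point.sym2x_some_some]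
      have hℓ : (x₁ - x₂) * W.slope x₁ x₂ y₁ y₂ = y₁ - y₂ := by
        rw [slope_of_X_ne hx]; field_simp
      have hℓ' : (x₁ - x₂) * W.slope x₁ x₂ y₁ (W.negY x₂ y₂) = y₁ - W.negY x₂ y₂ := by
        rw [slope_of_X_ne hx]; field_simp
      have h1 := sec_sum _ _ _ _ _ _ _ _ _ _ _ hℓ hℓ' e₁ e₂
      have h2 := sec_prod _ _ _ _ _ _ _ _ _ _ _ hx' hℓ hℓ' e₁ e₂
      ext i
      fin_cases i
      · simp only [addX, b₂, b₄, b₆, b₈] at h2 ⊢
        simp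
        simp only [negY] at h2
        linear_combination h2
      · simp only [addX, b₂, b₄, b₆, b₈] at h1 ⊢
        simp
        simp only [negY] at h1
        linear_combination h1
      · simp
        ring

end Fermat.Agent.FrobChar
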