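import Mathlib
import Fermat.Agent.FrobChar.SymAdd

set_option autoImplicit false

/-!
# Exact heights over a rational function field

`HasHt t z d` : the vector `z` is, up to scaling, the value at a transcendental element `t` of a
primitive vector of polynomials with maximal degree `d`.
-/

namespace Fermat.Agent.FrobChar

open WeierstrassCurve WeierstrassCurve.Affine Polynomial

variable {F : Type*} [Field F]

/-- A vector of polynomials without common root in the algebraic closure. -/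
def Prim {n : ℕ} (p : Fin n → F[X]) : Prop :=
  ∀ a : AlgebraicClosure F, ∃ i, aeval a (p i) ≠ 0

/-- A vector of polynomials with maximal degree exactly `d`. -/
def DegIs {n : ℕ} (p : Fin n → F[X]) (d : ℕ) : Prop :=
  (∀ i, (p i).natDegree ≤ d) ∧ ∃ i, (p i).coeff d ≠ 0

variable {L : Type*} [Field L] [Algebra F L]

/-- `z` is projectively equal to `p(t)` with `p` primitive of maximal degree `d`. -/
def HasHt (t : L) {n : ℕ} (z : Fin n → L) (d : ℕ) : Prop :=
  ∃ p : Fin n → F[X], Prim p ∧ DegIs p d ∧ ∃ c : L, c ≠ 0 ∧ ∀ i, z i = c * aeval t (p i)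

lemma exists_coprime_parts (p q : F[X]) (hp : p ≠ 0 ∨ q ≠ 0) :
    ∃ g u v : F[X], g ≠ 0 ∧ IsCoprime u v ∧ p = g * u ∧ q = g * v := by
  classical
  have hg : EuclideanDomain.gcd p q ≠ 0 := by
    rw [Ne, EuclideanDomain.gcd_eq_zero_iff]
    tauto
  obtain ⟨u, hu⟩ := EuclideanDomain.gcd_dvd_left p q
  obtain ⟨v, hv⟩ := EuclideanDomain.gcd_dvd_right p q
  refine ⟨EuclideanDomain.gcd p q, u, v, hg, ?_, hu, hv⟩
  have h := EuclideanDomain.gcd_eq_gcd_ab p q
  refine ⟨EuclideanDomain.gcdA p q, EuclideanDomain.gcdB p q, ?_⟩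
  apply mul_left_cancel₀ hg
  calc EuclideanDomain.gcd p q * (EuclideanDomain.gcdA p q * u + EuclideanDomain.gcdB p q * v)
      = (EuclideanDomain.gcd p q * u) * EuclideanDomain.gcdA p q +
        (EuclideanDomain.gcd p q * v) * EuclideanDomain.gcdB p q := by ring
    _ = EuclideanDomain.gcd p q * 1 := by rw [← hu, ← hv, mul_one, ← h]

lemma Prim.isUnit_of_dvd {n : ℕ} {p : Fin n → F[X]} (hp : Prim p) {u : F[X]}
    (hu : ∀ i, u ∣ p i) : IsUnit u := by
  by_contra h
  have hdeg : (u.map (algebraMap F (AlgebraicClosure F))).degree ≠ 0 := by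
    rw [degree_map]
    intro h0
    exact h (isUnit_iff_degree_eq_zero.mpr h0)
  obtain ⟨a, ha⟩ := IsAlgClosed.exists_root _ hdeg
  obtain ⟨i, hi⟩ := hp a
  apply hi
  obtain ⟨v, hv⟩ := hu i
  rw [hv, map_mul]
  rw [IsRoot, eval_map_algebraMap] at ha
  rw [ha, zero_mul]

lemma prim_of_isCoprime {p q : F[X]} (h : IsCoprime p q) : Prim ![p, q] := by
  intro a
  obtain ⟨u, v, huv⟩ := h
  by_contra hcon
  push Not at hcon
  have h0 := hcon 0
  have h1 := hcon 1
  simp only [Matrix.cons_val_zero, Matrix.cons_val_one] at h0 h1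
  have := congrArg (aeval a) huv
  simp [h0, h1] at this

lemma DegIs.degree_unique {n : ℕ} {p p' : Fin n → F[X]} {d d' : ℕ} (hp : DegIs p d)
    (hp' : DegIs p' d') {c : F} (hc : c ≠ 0) (h : ∀ i, p i = C c * p' i) : d = d' := by
  apply le_antisymm
  · obtain ⟨i, hi⟩ := hp.2
    rw [h i, coeff_C_mul] at hi
    exact (le_natDegree_of_ne_zero (right_ne_zero_of_mul hi)).trans (hp'.1 i)
  · obtain ⟨i, hi⟩ := hp'.2
    have : (p i).coeff d' ≠ 0 := by
      rw [h i, coeff_C_mul]; exact mul_ne_zero hc hi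
    exact (le_natDegree_of_ne_zero this).trans (hp.1 i)

variable {t : L}

lemma HasHt.unique (ht : Transcendental F t) {n : ℕ} {z : Fin n → L} {d d' : ℕ}
    (h : HasHt (F := F) t z d) (h' : HasHt (F := F) t z d') : d = d' := by
  obtain ⟨p, hp, hd, c, hc, hz⟩ := h
  obtain ⟨p', hp', hd', c', hc', hz'⟩ := h'
  have hinj : Function.Injective (aeval (R := F) t) := transcendental_iff_injective.mp ht
  -- cross-multiplication
  have hcross : ∀ i j, p i * p' j = p j * p' i := by
    intro i j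
    apply hinj
    rw [map_mul, map_mul]
    have e1 : c * aeval t (p i) = c' * aeval t (p' i) := by rw [← hz, hz']
    have e2 : c * aeval t (p j) = c' * aeval t (p' j) := by rw [← hz, hz']
    apply mul_left_cancel₀ hc
    linear_combination (aeval t (p' j)) * e1 - (aeval t (p' i)) * e2
  obtain ⟨i₀, hi₀⟩ := hd.2
  have hpi₀ : p i₀ ≠ 0 := fun h => hi₀ (by rw [h, coeff_zero])
  have hp'i₀ : p' i₀ ≠ 0 := by
    intro h
    have e1 : c * aeval t (p i₀) = c' * aeval t (p' i₀) := by rw [← hz, hz']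
    rw [h, map_zero, mul_zero] at e1
    have := (mul_eq_zero.mp e1).resolve_left hc
    exact hpi₀ (hinj (by rw [this, map_zero]))
  -- gcd of the two
  obtain ⟨g, u, v, hg, huv, hu, hv⟩ := exists_coprime_parts (p i₀) (p' i₀) (Or.inl hpi₀)
  have key : ∀ j, u * p' j = p j * v := by
    intro j
    have := hcross i₀ j
    rw [hu, hv] at this
    apply mul_left_cancel₀ hg
    linear_combination this
  have hu' : IsUnit u := hp.isUnit_of_dvd fun i => 
    huv.dvd_of_dvd_mul_right ⟨p' i, (key i).symm⟩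
  have hv' : IsUnit v := hp'.isUnit_of_dvd fun i => 
    huv.symm.dvd_of_dvd_mul_left ⟨p i, by rw [key i, mul_comm]⟩
  obtain ⟨a, ha, rfl⟩ := isUnit_iff.mp hu'
  obtain ⟨b, hb, rfl⟩ := isUnit_iff.mp hv'
  refine hd.degree_unique hd' (c := a / b) (div_ne_zero ha.ne_zero hb.ne_zero) fun i => ?_
  have hb0 : (C b : F[X]) ≠ 0 := C_ne_zero.mpr hb.ne_zero
  apply mul_right_cancel₀ hb0
  rw [← key i, mul_right_comm, ← C_mul, div_mul_cancel₀ _ hb.ne_zero]

lemma HasHt.smul {n : ℕ} {z z' : Fin n → L} {d : ℕ}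
    (h : HasHt (F := F) t z d) {c : L} (hc : c ≠ 0) (hz' : z' = c • z) : 
    HasHt (F := F) t z' d := by
  obtain ⟨p, hp, hd, c', hc', hz⟩ := h
  refine ⟨p, hp, hd, c * c', mul_ne_zero hc hc', fun i => ?_⟩
  rw [hz', Pi.smul_apply, hz i, smul_eq_mul, mul_assoc]

/-- the symmetric square of two vectors -/
def symv {R : Type*} [CommRing R] (x y : Fin 2 → R) : Fin 3 → R :=
  ![x 0 * y 0, x 0 * y 1 + x 1 * y 0, x 1 * y 1]

lemma symv_ne_zero {k : Type*} [Field k] {x y : Fin 2 → k} (hx : ∃ i, x i ≠ 0)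
    (hy : ∃ i, y i ≠ 0) : ∃ i, symv x y i ≠ 0 := by
  by_contra h
  push Not at h
  have h0 := h 0
  have h1 := h 1
  have h2 := h 2
  simp only [symv, Matrix.cons_val_zero, Matrix.cons_val_one, Matrix.cons_val] at h0 h1 h2
  obtain ⟨i, hi⟩ := hx
  obtain ⟨j, hj⟩ := hy
  by_cases hx0 : x 0 = 0
  · have hx1 : x 1 ≠ 0 := by
      intro h; fin_cases i <;> simp_all
    have hy1 : y 1 = 0 := by simpa [hx1] using h2
    have hy0 : y 0 = 0 := by simpa [hx0, hx1] using h1
    fin_cases j <;> simp_all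
  · have hy0 : y 0 = 0 := by simpa [hx0] using h0
    have hy1 : y 1 = 0 := by simpa [hx0, hy0] using h1
    fin_cases j <;> simp_all

lemma coeff_mul_of_le {p q : F[X]} {m n : ℕ} (hp : p.natDegree ≤ m) (hq : q.natDegree ≤ n) :
    (p * q).coeff (m + n) = p.coeff m * q.coeff n :=
  coeff_mul_add_eq_of_natDegree_le hp hq

lemma HasHt.symv {z z' : Fin 2 → L} {d d' : ℕ}
    (h : HasHt (F := F) t z d) (h' : HasHt (F := F) t z' d') :
    HasHt (F := F) t (symv z z') (d + d') := by
  obtain ⟨p, hp, hd, c, hc, hz⟩ := h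
  obtain ⟨p', hp', hd', c', hc', hz'⟩ := h'
  refine ⟨FrobChar.symv p p', ?_, ⟨?_, ?_⟩, c * c', mul_ne_zero hc hc', ?_⟩
  · intro a
    have := symv_ne_zero (x := fun i => aeval a (p i)) (y := fun i => aeval a (p' i)) (hp a) (hp' a)
    obtain ⟨i, hi⟩ := this
    refine ⟨i, ?_⟩
    fin_cases i <;> simpa [FrobChar.symv] using hi
  · intro i
    have h00 := natDegree_mul_le_of_le (hd.1 0) (hd'.1 0)
    have h01 := natDegree_mul_le_of_le (hd.1 0) (hd'.1 1)
    have h10 := natDegree_mul_le_of_le (hd.1 1) (hd'.1 0)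
    have h11 := natDegree_mul_le_of_le (hd.1 1) (hd'.1 1)
    fin_cases i
    · simpa [FrobChar.symv] using h00
    · simpa [FrobChar.symv] using natDegree_add_le_of_le h01 h10
    · simpa [FrobChar.symv] using h11
  · obtain ⟨i, hi⟩ := symv_ne_zero hd.2 hd'.2
    refine ⟨i, ?_⟩
    fin_cases i
    · simpa [FrobChar.symv, coeff_mul_of_le (hd.1 0) (hd'.1 0)] using hi
    · simpa [FrobChar.symv, coeff_mul_of_le (hd.1 0) (hd'.1 1), coeff_mul_of_le (hd.1 1) (hd'.1 0)]
        using hi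
    · simpa [FrobChar.symv, coeff_mul_of_le (hd.1 1) (hd'.1 1)] using hi
  · intro i
    fin_cases i
    · simp [FrobChar.symv, hz, hz']; ring
    · simp [FrobChar.symv, hz, hz']; ring
    · simp [FrobChar.symv, hz, hz']; ring

/-- evaluation of the addition-subtraction map on a vector -/
def asv {R : Type*} [CommRing R] (W : WeierstrassCurve R) (z : Fin 3 → R) : Fin 3 → R :=
  ![z 0 ^ 2 - W.b₄ * z 0 * z 2 - W.b₆ * z 1 * z 2 - W.b₈ * z 2 ^ 2,
    2 * z 1 * z 0 + W.b₂ * z 0 * z 2 + W.b₄ * z 1 * z 2 + W.b₆ * z 2 ^ 2,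
    z 1 ^ 2 - 4 * z 0 * z 2]

lemma asv_ne_zero {k : Type*} [Field k] (W : WeierstrassCurve k) [W.IsElliptic]
    {z : Fin 3 → k} (hz : ∃ i, z i ≠ 0) : ∃ i, asv W z i ≠ 0 := by
  have h := addSubMap_ne_zero W (x := z) (by
    intro h; obtain ⟨i, hi⟩ := hz; exact hi (by rw [h]; rfl))
  rw [addSubMap_eval] at h
  by_contra hcon
  push Not at hcon
  exact h (funext hcon)

lemma HasHt.asv (W : WeierstrassCurve F) [W.IsElliptic] {z : Fin 3 → L} {d : ℕ}
    (h : HasHt (F := F) t z d) :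
    HasHt (F := F) t (asv (W.map (algebraMap F L)) z) (d + d) := by
  obtain ⟨p, hp, hd, c, hc, hz⟩ := h
  refine ⟨FrobChar.asv (W.map C) p, ?_, ⟨?_, ?_⟩, c * c, mul_ne_zero hc hc, ?_⟩
  · intro a
    have := asv_ne_zero (W.map (algebraMap F (AlgebraicClosure F)))
      (z := fun i => aeval a (p i)) (hp a)
    obtain ⟨i, hi⟩ := this
    refine ⟨i, ?_⟩
    fin_cases i <;> simpa [FrobChar.asv, map_ofNat] using hi
  · intro i
    have hm : ∀ i j, (p i * p j).natDegree ≤ d + d := fun i j =>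
      natDegree_mul_le_of_le (hd.1 i) (hd.1 j)
    have hm' : ∀ (b : F) (i j), (C b * p i * p j).natDegree ≤ d + d := fun b i j => by
      rw [mul_assoc]
      exact (natDegree_C_mul_le _ _).trans (hm i j)
    have hm2 : ∀ i, (p i ^ 2).natDegree ≤ d + d := fun i => by
      rw [sq]; exact hm i i
    have hm3 : ∀ (b : F) (i), (C b * p i ^ 2).natDegree ≤ d + d := fun b i =>
      (natDegree_C_mul_le _ _).trans (hm2 i)
    have hadd : ∀ {u v : F[X]}, u.natDegree ≤ d + d → v.natDegree ≤ d + d →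
        (u + v).natDegree ≤ d + d := fun hu hv => by
      simpa using natDegree_add_le_of_le hu hv
    have hsub : ∀ {u v : F[X]}, u.natDegree ≤ d + d → v.natDegree ≤ d + d →
        (u - v).natDegree ≤ d + d := fun hu hv => by
      simpa using natDegree_sub_le_of_le hu hv
    fin_cases i
    · simp only [FrobChar.asv, map_b₄, map_b₆, map_b₈, map_b₂, Fin.zero_eta, Matrix.cons_val_zero]
      exact hsub (hsub (hsub (hm2 0) (hm' _ _ _)) (hm' _ _ _)) (hm3 _ _)
    · simp only [FrobChar.asv, map_b₄, map_b₆, map_b₈, map_b₂, Fin.mk_one, Matrix.cons_val_one,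
        Matrix.cons_val_zero]
      have h2 : (2 : F[X]) = C (2:F) := (map_ofNat C 2).symm
      rw [h2]
      exact hadd (hadd (hadd (hm' _ _ _) (hm' _ _ _)) (hm' _ _ _)) (hm3 _ _)
    · simp only [FrobChar.asv, map_b₄, map_b₆, map_b₈, map_b₂, Fin.reduceFinMk, Matrix.cons_val]
      have h4 : (4 : F[X]) = C (4:F) := (map_ofNat C 4).symm
      rw [h4]
      exact hsub (hm2 _) (hm' _ _ _)
  · obtain ⟨i, hi⟩ := asv_ne_zero W hd.2
    refine ⟨i, ?_⟩
    have hc : ∀ i j, (p i * p j).coeff (d + d) = (p i).coeff d * (p j).coeff d := fun i j =>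
      coeff_mul_of_le (hd.1 i) (hd.1 j)
    have hc' : ∀ (b : F) (i j), (C b * p i * p j).coeff (d + d) =
        b * (p i).coeff d * (p j).coeff d := fun b i j => by
      rw [mul_assoc, coeff_C_mul, hc, mul_assoc]
    have hc2 : ∀ i, (p i ^ 2).coeff (d + d) = (p i).coeff d ^ 2 := fun i => by
      rw [sq, hc, sq]
    have hc3 : ∀ (b : F) (i), (C b * p i ^ 2).coeff (d + d) = b * (p i).coeff d ^ 2 := fun b i => by
      rw [coeff_C_mul, hc2]
    have h2 : (2 : F[X]) = C (2:F) := (map_ofNat C 2).symm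
    have h4 : (4 : F[X]) = C (4:F) := (map_ofNat C 4).symm
    fin_cases i
    · simp only [FrobChar.asv, map_b₄, map_b₆, map_b₈, map_b₂, Fin.zero_eta, Matrix.cons_val_zero,
        coeff_sub, hc', hc2, hc3] at hi ⊢
      exact hi
    · simp only [FrobChar.asv, map_b₄, map_b₆, map_b₈, map_b₂, Fin.mk_one, Matrix.cons_val_one,
        Matrix.cons_val_zero, coeff_add, h2, hc', hc3] at hi ⊢
      exact hi
    · simp only [FrobChar.asv, map_b₄, map_b₆, map_b₈, map_b₂, Fin.reduceFinMk, Matrix.cons_val,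
        coeff_sub, h4, hc', hc2] at hi ⊢
      exact hi
  · intro i
    fin_cases i
    · simp [FrobChar.asv, hz]; ring
    · simp [FrobChar.asv, hz, map_ofNat]; ring
    · simp [FrobChar.asv, hz, map_ofNat]; ring

section parallelogram

variable [DecidableEq L] (W : Affine F) [hW : WeierstrassCurve.IsElliptic W]

/-- The exact parallelogram law. -/
theorem parallelogram (ht : Transcendental F t) (P Q : (W⁄L).Point) {d₁ d₂ d₃ d₄ : ℕ}
    (h₁ : HasHt (F := F) t P.xRep d₁) (h₂ : HasHt (F := F) t Q.xRep d₂)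
    (h₃ : HasHt (F := F) t (P + Q).xRep d₃) (h₄ : HasHt (F := F) t (P - Q).xRep d₄) :
    d₃ + d₄ = 2 * d₁ + 2 * d₂ := by
  have : WeierstrassCurve.IsElliptic (W⁄L) := by
    change WeierstrassCurve.IsElliptic (W.map (algebraMap F L))
    infer_instance
  obtain ⟨c, hc, h⟩ := exists_addSubMap_sym2x (W⁄L) P Q
  have e1 := (h₁.symv h₂).asv W
  have e2 := h₃.symv h₄
  have e3 : asv (W.map (algebraMap F L)) (symv P.xRep Q.xRep) =
      c • symv (P + Q).xRep (P - Q).xRep := by
    rw [addSubMap_eval] at h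
    exact h
  have e4 := e2.smul hc e3
  have := e1.unique ht e4
  omega

end parallelogram

end Fermat.Agent.FrobChar
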