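import Mathlib
import Fermat.Agent.FrobChar.Height

set_option autoImplicit false

/-!
# Heights of compositions with rational functions and of Frobenius powers
-/

namespace Fermat.Agent.FrobChar

open Polynomial

variable {F : Type*} [Field F]

/-- homogenized evaluation of `A` (degree `N`) at `(x, y)` -/
noncomputable def homEval {R : Type*} [CommRing R] [Algebra F R] (N : ℕ) (A : F[X]) (x y : R) : R :=
  ∑ i ∈ Finset.range (N + 1), algebraMap F R (A.coeff i) * x ^ i * y ^ (N - i)

lemma homEval_zero_right {R : Type*} [CommRing R] [Algebra F R] (N : ℕ) (A : F[X]) (x : R) :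
    homEval N A x 0 = algebraMap F R (A.coeff N) * x ^ N := by
  rw [homEval, Finset.sum_range_succ, Finset.sum_eq_zero]
  · simp
  · intro i hi
    have : N - i ≠ 0 := by
      have := Finset.mem_range.mp hi; omega
    rw [zero_pow this, mul_zero]

lemma homEval_of_ne_zero {k : Type*} [Field k] [Algebra F k] {N : ℕ} {A : F[X]}
    (hA : A.natDegree ≤ N) (x : k) {y : k} (hy : y ≠ 0) :
    homEval N A x y = y ^ N * aeval (x / y) A := by
  rw [homEval, aeval_eq_sum_range' (Nat.lt_succ_of_le hA), Finset.mul_sum]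
  refine Finset.sum_congr rfl fun i hi => ?_
  have hi' : i ≤ N := by have := Finset.mem_range.mp hi; omega
  have : y ^ N = y ^ i * y ^ (N - i) := by rw [← pow_add]; congr 1; omega
  rw [this, Algebra.smul_def, div_pow]
  field_simp

lemma map_homEval {R S : Type*} [CommRing R] [Algebra F R] [CommRing S] [Algebra F S]
    (φ : R →ₐ[F] S) (N : ℕ) (A : F[X]) (x y : R) :
    φ (homEval N A x y) = homEval N A (φ x) (φ y) := by
  simp [homEval, map_sum]

lemma homEval_ne_zero {k : Type*} [Field k] [Algebra F k] {N : ℕ} {A B : F[X]}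
    (hA : A.natDegree = N) (hB : B.natDegree ≤ N) (hAB : IsCoprime A B) (hA0 : A ≠ 0) {x y : k}
    (hxy : x ≠ 0 ∨ y ≠ 0) :
    homEval N A x y ≠ 0 ∨ homEval N B x y ≠ 0 := by
  by_cases hy : y = 0
  · left
    rw [hy, homEval_zero_right]
    have hx : x ≠ 0 := by tauto
    refine mul_ne_zero ?_ (pow_ne_zero _ hx)
    rw [Ne, map_eq_zero, ← hA]
    exact leadingCoeff_ne_zero.mpr hA0
  · rw [homEval_of_ne_zero hA.le _ hy, homEval_of_ne_zero hB _ hy]
    by_contra hcon
    push Not at hcon
    obtain ⟨h1, h2⟩ := hcon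
    have h1' := (mul_eq_zero.mp h1).resolve_left (pow_ne_zero _ hy)
    have h2' := (mul_eq_zero.mp h2).resolve_left (pow_ne_zero _ hy)
    obtain ⟨u, v, huv⟩ := hAB
    have := congrArg (aeval (x / y)) huv
    simp [h1', h2'] at this

lemma ne_zero_or_of_exists {R : Type*} [Zero R] {v : Fin 2 → R} (h : ∃ i, v i ≠ 0) :
    v 0 ≠ 0 ∨ v 1 ≠ 0 := by
  obtain ⟨i, hi⟩ := h
  fin_cases i
  · left; exact hi
  · right; exact hi

lemma natDegree_homEval_le {N d : ℕ} {A : F[X]} {p q : F[X]} (hp : p.natDegree ≤ d)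
    (hq : q.natDegree ≤ d) : (homEval N A p q).natDegree ≤ N * d := by
  rw [homEval]
  refine natDegree_sum_le_of_forall_le _ _ fun i hi => ?_
  have hi' : i ≤ N := by have := Finset.mem_range.mp hi; omega
  have h1 : (p ^ i * q ^ (N - i)).natDegree ≤ i * d + (N - i) * d :=
    natDegree_mul_le_of_le (natDegree_pow_le_of_le _ hp) (natDegree_pow_le_of_le _ hq)
  have h2 : i * d + (N - i) * d = N * d := by
    rw [← Nat.add_mul]; congr 1; omega
  rw [mul_assoc, algebraMap_eq]
  exact (natDegree_C_mul_le _ _).trans (h1.trans h2.le)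

lemma coeff_homEval {N d : ℕ} {A : F[X]} {p q : F[X]} (hp : p.natDegree ≤ d)
    (hq : q.natDegree ≤ d) : (homEval N A p q).coeff (N * d) =
      homEval N A (p.coeff d) (q.coeff d) := by
  rw [homEval, homEval, finsetSum_coeff]
  refine Finset.sum_congr rfl fun i hi => ?_
  have hi' : i ≤ N := by have := Finset.mem_range.mp hi; omega
  have h2 : N * d = i * d + (N - i) * d := by
    rw [← Nat.add_mul]; congr 1; omega
  rw [mul_assoc, algebraMap_eq, coeff_C_mul, h2,
    coeff_mul_of_le (natDegree_pow_le_of_le _ hp) (natDegree_pow_le_of_le _ hq),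
    coeff_pow_of_natDegree_le hp, coeff_pow_of_natDegree_le hq]
  simp [mul_assoc]

variable {L : Type*} [Field L] [Algebra F L] {t : L}

/-- Height of a composition. -/
theorem HasHt.comp {r : L} {d N : ℕ} (h : HasHt (F := F) t ![r, 1] d) {A B : F[X]}
    (hA : A.natDegree = N) (hB : B.natDegree ≤ N) (hAB : IsCoprime A B) (hA0 : A ≠ 0)
    (hBr : aeval r B ≠ 0) : HasHt (F := F) t ![aeval r A / aeval r B, 1] (N * d) := by
  obtain ⟨p, hp, hd, c, hc, hz⟩ := h
  have hz0 : r = c * aeval t (p 0) := by simpa using hz 0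
  have hz1 : 1 = c * aeval t (p 1) := by simpa using hz 1
  have hp1 : aeval t (p 1) ≠ 0 := by
    intro h; rw [h, mul_zero] at hz1; exact one_ne_zero hz1
  have hr : aeval t (p 0) / aeval t (p 1) = r := by
    rw [div_eq_iff hp1, hz0]
    linear_combination (aeval t (p 0)) * hz1
  refine ⟨![homEval N A (p 0) (p 1), homEval N B (p 0) (p 1)], ?_, ⟨?_, ?_⟩, 
    c ^ N / aeval r B, div_ne_zero (pow_ne_zero _ hc) hBr, ?_⟩
  · intro a
    have h1 := ne_zero_or_of_exists (v := fun i => aeval a (p i)) (hp a)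
    rcases homEval_ne_zero hA hB hAB hA0 h1 with h | h
    · refine ⟨0, ?_⟩
      simpa [map_homEval] using h
    · refine ⟨1, ?_⟩
      simpa [map_homEval] using h
  · intro i
    fin_cases i
    · exact natDegree_homEval_le (hd.1 0) (hd.1 1)
    · exact natDegree_homEval_le (hd.1 0) (hd.1 1)
  · have h1 := ne_zero_or_of_exists (v := fun i => (p i).coeff d) hd.2
    rcases homEval_ne_zero hA hB hAB hA0 h1 with h | h
    · refine ⟨0, ?_⟩
      simpa [coeff_homEval (hd.1 0) (hd.1 1)] using h
    · refine ⟨1, ?_⟩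
      simpa [coeff_homEval (hd.1 0) (hd.1 1)] using h
  · have hcN : c ^ N * aeval t (p 1) ^ N = 1 := by rw [← mul_pow, ← hz1, one_pow]
    intro i
    fin_cases i
    · simp only [Fin.zero_eta, Matrix.cons_val_zero, map_homEval]
      rw [homEval_of_ne_zero hA.le _ hp1, hr]
      field_simp
      linear_combination (-(aeval r) A) * hcN
    · simp only [Fin.mk_one, Matrix.cons_val_one, Matrix.cons_val_zero, map_homEval]
      rw [homEval_of_ne_zero hB _ hp1, hr]
      field_simp
      linear_combination - hcN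

/-- Height of the `q`-power. -/
theorem HasHt.pow {n : ℕ} {z : Fin n → L} {d : ℕ} (h : HasHt (F := F) t z d) (q : ℕ) :
    HasHt (F := F) t (fun i => z i ^ q) (q * d) := by
  obtain ⟨p, hp, hd, c, hc, hz⟩ := h
  refine ⟨fun i => p i ^ q, ?_, ⟨?_, ?_⟩, c ^ q, pow_ne_zero _ hc, ?_⟩
  · intro a
    obtain ⟨i, hi⟩ := hp a
    exact ⟨i, by rw [map_pow]; exact pow_ne_zero _ hi⟩
  · intro i
    exact natDegree_pow_le_of_le _ (hd.1 i)
  · obtain ⟨i, hi⟩ := hd.2
    exact ⟨i, by rw [coeff_pow_of_natDegree_le (hd.1 i)]; exact pow_ne_zero _ hi⟩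
  · intro i
    simp only [hz i, mul_pow, map_pow]

end Fermat.Agent.FrobChar
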