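import Mathlib

set_option autoImplicit false

/-!
# Quadratic functions from the parallelogram law, and the characteristic equation
-/

namespace Fermat.Agent.FrobChar

variable {G : Type*} [AddCommGroup G] (h : G → ℤ)
  (hp : ∀ P Q : G, h (P + Q) + h (P - Q) = 2 * h P + 2 * h Q)

include hp

lemma para_zero : h 0 = 0 := by
  have := hp 0 0
  simp only [add_zero, sub_zero] at this
  linarith

lemma para_add3 (P Q R : G) :
    h (P + Q + R) = h (P + Q) + h (P + R) + h (Q + R) - h P - h Q - h R := by
  have h1 := hp (P + R) Q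
  have h2 := hp (P - Q) R
  have h3 := hp P (Q + R)
  have h4 := hp P Q
  have e1 : P + R + Q = P + Q + R := by abel
  have e2 : P + R - Q = P - Q + R := by abel
  have e3 : P - (Q + R) = P - Q - R := by abel
  have e4 : P + (Q + R) = P + Q + R := by abel
  rw [e1, e2] at h1
  rw [e3, e4] at h3
  linarith

/-- the polar form as a bi-additive map -/
def paraBilin : G →+ G →+ ℤ :=
  AddMonoidHom.mk' (fun P => AddMonoidHom.mk' (fun Q => h (P + Q) - h P - h Q) (by
    intro Q R
    have := para_add3 h hp P Q R
    have e : P + (Q + R) = P + Q + R := by abel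
    rw [e]
    linarith)) (by
    intro P Q
    ext R
    simp only [AddMonoidHom.mk'_apply, AddMonoidHom.add_apply]
    have := para_add3 h hp P Q R
    linarith)

lemma paraBilin_apply (P Q : G) : paraBilin h hp P Q = h (P + Q) - h P - h Q := rfl

lemma paraBilin_comm (P Q : G) : paraBilin h hp P Q = paraBilin h hp Q P := by
  rw [paraBilin_apply, paraBilin_apply, add_comm P Q]; ring

lemma paraBilin_self (P : G) : paraBilin h hp P P = 2 * h P := by
  rw [paraBilin_apply]
  have h1 := hp P P
  rw [sub_self, para_zero h hp] at h1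
  linarith

theorem char_eq_of_para (φ : G →+ G) (q N : ℤ) (hφ : ∀ P, h (φ P) = q * h P)
    (hN : ∀ P, h (φ P - P) = N * h P) (P : G) :
    h (φ (φ P) - (q + 1 - N) • φ P + q • P) = 0 := by
  set B := paraBilin h hp with hB
  set a : ℤ := q + 1 - N with ha
  have hself : ∀ P, B P P = 2 * h P := paraBilin_self h hp
  have hcomm : ∀ P Q, B P Q = B Q P := paraBilin_comm h hp
  have hBφ : ∀ P Q, B (φ P) (φ Q) = q * B P Q := by
    intro P Q
    rw [hB, paraBilin_apply, paraBilin_apply, ← map_add, hφ, hφ, hφ]
    ring
  have hBa : ∀ P, 2 * B (φ P) P = a * B P P := by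
    intro P
    have h1 : B (φ P - P) (φ P - P) = 2 * (N * h P) := by rw [hself, hN]
    simp only [map_sub, AddMonoidHom.sub_apply, hBφ] at h1
    rw [hcomm P (φ P), hself] at h1
    rw [hself, ha]
    linarith
  have hpol : ∀ P Q, B (φ P) Q + B (φ Q) P = a * B P Q := by
    intro P Q
    have h1 := hBa (P + Q)
    have h2 := hBa P
    have h3 := hBa Q
    simp only [map_add, AddMonoidHom.add_apply] at h1
    have h4 := hcomm P Q
    rw [h4] at h1 ⊢
    linarith
  have h1 := hpol P (φ P)
  have h2 : B (φ (φ P) - a • φ P + q • P) (φ (φ P) - a • φ P + q • P) = 0 := by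
    simp only [map_add, map_sub, map_zsmul, AddMonoidHom.add_apply, AddMonoidHom.sub_apply,
      AddMonoidHom.smul_apply, smul_eq_mul, hBφ]
    have c1 := hcomm P (φ P)
    have c2 := hcomm P (φ (φ P))
    have c3 := hBa P
    rw [hBφ] at h1
    simp only [c1, c2] at h1 ⊢
    linear_combination 2 * q * h1 - a * q * c3
  have h3 := hself (φ (φ P) - a • φ P + q • P)
  linarith

end Fermat.Agent.FrobChar
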