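import Mathlib
import Fermat.Agent.FrobChar.Height
import Fermat.Agent.FrobChar.Quad

set_option autoImplicit false

/-!
# The group of odd points `(r, s·y)` with `r, s ∈ F(t)` on `y² = f(t)`
-/

namespace Fermat.Agent.FrobChar

open WeierstrassCurve WeierstrassCurve.Affine Polynomial IntermediateField

variable {F : Type*} [Field F] {L : Type*} [Field L] [Algebra F L]

/-- the cubic polynomial of a Weierstrass curve -/
noncomputable def cub (W : Affine F) : F[X] := X ^ 3 + C W.a₂ * X ^ 2 + C W.a₄ * X + C W.a₆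

lemma aeval_cub (W : Affine F) (t : L) : aeval t (cub W) =
    t ^ 3 + algebraMap F L W.a₂ * t ^ 2 + algebraMap F L W.a₄ * t + algebraMap F L W.a₆ := by
  simp [cub]

lemma aeval_mem_adjoin (t : L) (p : F[X]) : aeval t p ∈ F⟮t⟯ := 
  (mem_adjoin_simple_iff F _).mpr ⟨p, 1, by simp⟩

lemma degIs_pair {p q : F[X]} (h : p ≠ 0 ∨ q ≠ 0) :
    DegIs ![p, q] (max p.natDegree q.natDegree) := by
  constructor
  · intro i
    fin_cases i <;> simp
  · rcases le_total p.natDegree q.natDegree with hpq | hpq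
    · by_cases hq : q = 0
      · refine ⟨0, ?_⟩
        have hp : p ≠ 0 := by tauto
        have : p.natDegree = 0 := by simpa [hq] using hpq
        have h2 := leadingCoeff_ne_zero.mpr hp
        rw [leadingCoeff, this] at h2
        simpa [hq, this] using h2
      · refine ⟨1, ?_⟩
        simp only [max_eq_right hpq, Matrix.cons_val_one]
        exact leadingCoeff_ne_zero.mpr hq
    · by_cases hp : p = 0
      · refine ⟨1, ?_⟩
        have hq : q ≠ 0 := by tauto
        have : q.natDegree = 0 := by simpa [hp] using hpq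
        have h2 := leadingCoeff_ne_zero.mpr hq
        rw [leadingCoeff, this] at h2
        simpa [hp, this] using h2
      · refine ⟨0, ?_⟩
        simp only [max_eq_left hpq, Matrix.cons_val_zero]
        exact leadingCoeff_ne_zero.mpr hp

lemma exists_coprime_of_mem {t r : L} (hr : r ∈ F⟮t⟯) :
    ∃ p q : F[X], IsCoprime p q ∧ aeval t q ≠ 0 ∧ r = aeval t p / aeval t q := by
  obtain ⟨p, q, rfl⟩ := (mem_adjoin_simple_iff F _).mp hr
  by_cases hq : aeval t q = 0
  · exact ⟨0, 1, isCoprime_one_right, by simp, by simp [hq]⟩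
  · have hq0 : q ≠ 0 := by rintro rfl; simp at hq
    obtain ⟨g, u, v, hg, huv, rfl, rfl⟩ := exists_coprime_parts p q (Or.inr hq0)
    rw [map_mul] at hq
    have hgt := left_ne_zero_of_mul hq
    have hvt := right_ne_zero_of_mul hq
    refine ⟨u, v, huv, hvt, ?_⟩
    rw [map_mul, map_mul]
    field_simp

lemma exists_hasHt_of_mem {t r : L} (hr : r ∈ F⟮t⟯) : ∃ d, HasHt (F := F) t ![r, 1] d := by
  obtain ⟨p, q, hpq, hq, rfl⟩ := exists_coprime_of_mem hr
  refine ⟨_, ![p, q], prim_of_isCoprime hpq, degIs_pair (Or.inr ?_), (aeval t q)⁻¹, inv_ne_zero hq,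
    ?_⟩
  · rintro rfl; simp at hq
  · intro i
    fin_cases i
    · simp; field_simp
    · simp; field_simp

lemma hasHt_zero (t : L) : HasHt (F := F) t ![1, 0] 0 := by
  refine ⟨![1, 0], prim_of_isCoprime isCoprime_one_left, ⟨?_, 0, by simp⟩, 1, one_ne_zero, ?_⟩
  · intro i; fin_cases i <;> simp
  · intro i; fin_cases i <;> simp

variable [DecidableEq L]

/-- Predicate for the odd points -/
def IsOddPt (W : Affine F) (t y : L) : (W⁄L).Point → Prop
  | 0 => True
  | .some x' y' _ => x' ∈ F⟮t⟯ ∧ y' / y ∈ F⟮t⟯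

variable (W : Affine F) (h1 : W.a₁ = 0) (h3 : W.a₃ = 0) {t y : L} (hy : y ^ 2 = aeval t (cub W))
  (hy0 : y ≠ 0)

include h1 h3 hy hy0

/-- The subgroup of odd points -/
def oddPts : AddSubgroup (W⁄L).Point where
  carrier := {P | IsOddPt W t y P}
  zero_mem' := trivial
  neg_mem' := by
    rintro (_ | ⟨x', y', h⟩) hP
    · trivial
    · rw [Set.mem_ofPred_eq] at *
      rw [Point.neg_some]
      refine ⟨hP.1, ?_⟩
      have : (W⁄L).negY x' y' = -y' := by
        simp [negY, h1, h3]
      rw [this, neg_div]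
      exact neg_mem hP.2
  add_mem' := by
    rintro (_ | ⟨x₁, y₁, h₁⟩) (_ | ⟨x₂, y₂, h₂⟩) hP hQ
    · trivial
    · rw [← Point.zero_def, zero_add]; exact hQ
    · rw [← Point.zero_def, add_zero]; exact hP
    · rw [Set.mem_ofPred_eq] at *
      by_cases hxy : x₁ = x₂ ∧ y₁ = (W⁄L).negY x₂ y₂
      · rw [Point.add_of_Y_eq hxy.1 hxy.2]; trivial
      · rw [Point.add_some hxy]
        have halg : ∀ a : F, algebraMap F L a ∈ F⟮t⟯ := fun a => _root_.algebraMap_mem _ a
        have hnat : ∀ n : ℕ, (n : L) ∈ F⟮t⟯ := fun n => _root_.natCast_mem _ n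
        have hcub := aeval_mem_adjoin t (cub W)
        have hℓ : (W⁄L).slope x₁ x₂ y₁ y₂ / y ∈ F⟮t⟯ := by
          by_cases hx : x₁ = x₂
          · have hy' : y₁ ≠ (W⁄L).negY x₂ y₂ := fun h => hxy ⟨hx, h⟩
            rw [slope_of_Y_ne hx hy']
            have e : (3 * x₁ ^ 2 + 2 * (W⁄L).a₂ * x₁ + (W⁄L).a₄ - (W⁄L).a₁ * y₁) / 
                (y₁ - (W⁄L).negY x₁ y₁) / y = ((3 : ℕ) * x₁ ^ 2 + (2 : ℕ) * algebraMap F L W.a₂ * x₁
                + algebraMap F L W.a₄) / ((2 : ℕ) * (y₁ / y) * aeval t (cub W)) := by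
              rw [← hy]
              simp [negY, h1, h3]
              field_simp
              ring
            rw [e]
            refine div_mem (add_mem (add_mem (mul_mem (hnat _) (pow_mem hP.1 2)) 
              (mul_mem (mul_mem (hnat _) (halg _)) hP.1)) (halg _)) 
              (mul_mem (mul_mem (hnat _) hP.2) hcub)
          · rw [slope_of_X_ne hx]
            have e : (y₁ - y₂) / (x₁ - x₂) / y = (y₁ / y - y₂ / y) / (x₁ - x₂) := by
              field_simp
            rw [e]
            exact div_mem (sub_mem hP.2 hQ.2) (sub_mem hP.1 hQ.1)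
        set ℓ := (W⁄L).slope x₁ x₂ y₁ y₂ with hℓdef
        have hX : (W⁄L).addX x₁ x₂ ℓ ∈ F⟮t⟯ := by
          have e : (W⁄L).addX x₁ x₂ ℓ = (ℓ / y) ^ 2 * aeval t (cub W) - algebraMap F L W.a₂ 
              - x₁ - x₂ := by
            rw [← hy, addX]
            simp [h1]
            field_simp
          rw [e]
          exact sub_mem (sub_mem (sub_mem (mul_mem (pow_mem hℓ 2) hcub) (halg _)) hP.1) hQ.1
        refine ⟨hX, ?_⟩
        have e : (W⁄L).addY x₁ x₂ y₁ ℓ / y = 
            -((ℓ / y) * ((W⁄L).addX x₁ x₂ ℓ - x₁) + y₁ / y) := by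
          rw [addY, negY, negAddY]
          simp [h1, h3]
          field_simp
        rw [e]
        exact neg_mem (add_mem (mul_mem hℓ (sub_mem hX hP.1)) hP.2)

lemma mem_oddPts_iff (P : (W⁄L).Point) : P ∈ oddPts W h1 h3 hy hy0 ↔ IsOddPt W t y P :=
  Iff.rfl

omit hy hy0 h1 h3 [DecidableEq L] in
lemma exists_hasHt_of_isOddPt {P : (W⁄L).Point} (hP : IsOddPt W t y P) :
    ∃ d, HasHt (F := F) t P.xRep d := by
  match P, hP with
  | 0, _ => exact ⟨0, hasHt_zero t⟩
  | .some x' y' h, hP => exact exists_hasHt_of_mem hP.1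

omit hy hy0 h1 h3 in
open Classical in
/-- The height of an odd point (junk value 0 for other points) -/
noncomputable def ht (W : Affine F) (t : L) (P : (W⁄L).Point) : ℕ :=
  if h : ∃ d, HasHt (F := F) t P.xRep d then h.choose else 0

omit hy hy0 h1 h3 [DecidableEq L] in
lemma hasHt_ht {P : (W⁄L).Point} (hP : IsOddPt W t y P) :
    HasHt (F := F) t P.xRep (ht W t P) := by
  have h := exists_hasHt_of_isOddPt W hP
  rw [ht, dif_pos h]
  exact h.choose_spec

theorem ht_parallelogram [WeierstrassCurve.IsElliptic W] (htr : Transcendental F t) 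
    (P Q : oddPts W h1 h3 hy hy0) :
    ht W t (P + Q : (W⁄L).Point) + ht W t (P - Q : (W⁄L).Point) = 
      2 * ht W t (P : (W⁄L).Point) + 2 * ht W t (Q : (W⁄L).Point) := by
  apply parallelogram W htr _ _ (hasHt_ht W P.2) (hasHt_ht W Q.2) 
    (hasHt_ht W (P + Q).2) (hasHt_ht W (P - Q).2)

end Fermat.Agent.FrobChar
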