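import Mathlib
import Fermat.Agent.FrobChar.OddPts

set_option autoImplicit false

/-!
# The rational function `x(φη - η)` over a finite field
-/

namespace Fermat.Agent.FrobChar

open WeierstrassCurve WeierstrassCurve.Affine Polynomial

variable {F : Type*} [Field F]

/-- product of linear factors -/
noncomputable def ZS (S : Finset F) : F[X] := ∏ x ∈ S, (X - C x)

lemma ZS_monic (S : Finset F) : (ZS S).Monic := monic_prod_X_sub_C _ _

lemma ZS_natDegree (S : Finset F) : (ZS S).natDegree = S.card := by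
  simp [ZS]

lemma ZS_dvd {S : Finset F} {p : F[X]} (hp : p ≠ 0) (h : ∀ x ∈ S, p.eval x = 0) : ZS S ∣ p := by
  have : (S.val.map fun a => X - C a).prod ∣ p := by
    rw [Multiset.prod_X_sub_C_dvd_iff_le_roots hp, Multiset.le_iff_subset S.nodup]
    intro x hx
    rw [mem_roots hp]
    exact h x hx
  exact this

lemma ZS_eval_eq_zero {S : Finset F} {x : F} (hx : x ∈ S) : (ZS S).eval x = 0 := by
  rw [ZS, eval_prod]
  exact Finset.prod_eq_zero hx (by simp)

lemma ZS_eval_ne_zero {S : Finset F} {x : F} (hx : x ∉ S) : (ZS S).eval x ≠ 0 := by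
  rw [ZS, eval_prod]
  refine Finset.prod_ne_zero_iff.mpr fun y hy => ?_
  simp only [eval_sub, eval_X, eval_C]
  intro h
  apply hx
  rw [sub_eq_zero] at h
  rwa [h]

lemma isCoprime_ZS {S : Finset F} {A : F[X]} (h : ∀ x ∈ S, A.eval x ≠ 0) : IsCoprime A (ZS S) := by
  refine IsCoprime.prod_right fun x hx => ?_
  rw [isCoprime_comm]
  exact (irreducible_X_sub_C x).coprime_iff_not_dvd.mpr fun hd => h x hx (dvd_iff_isRoot.mp hd)

variable [Fintype F] [DecidableEq F]

omit [DecidableEq F] in
lemma ZS_univ : ZS (Finset.univ : Finset F) = X ^ Fintype.card F - X := by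
  have h := FiniteField.roots_X_pow_card_sub_X F
  have hm : (X ^ Fintype.card F - X : F[X]).Monic := by
    apply monic_X_pow_sub
    rw [degree_X]
    exact_mod_cast Fintype.one_lt_card
  have h2 : Multiset.card (X ^ Fintype.card F - X : F[X]).roots = 
      (X ^ Fintype.card F - X : F[X]).natDegree := by
    rw [h, FiniteField.X_pow_card_sub_X_natDegree_eq F Fintype.one_lt_card]
    rfl
  have h3 := prod_multiset_X_sub_C_of_monic_of_roots_card_eq hm h2
  rw [h] at h3
  exact h3

variable (W : Affine F)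

/-- abscissae of 2-torsion points -/
noncomputable def S0 : Finset F := Finset.univ.filter fun x => (cub W).eval x = 0
open Classical in
/-- abscissae with two points -/
noncomputable def Sp : Finset F := 
  Finset.univ.filter fun x => (cub W).eval x ≠ 0 ∧ IsSquare ((cub W).eval x)
open Classical in
/-- abscissae with no points -/
noncomputable def Sm : Finset F := Finset.univ.filter fun x => ¬ IsSquare ((cub W).eval x)

lemma mem_S0 {x : F} : x ∈ S0 W ↔ (cub W).eval x = 0 := by simp [S0]
lemma mem_Sp {x : F} : x ∈ Sp W ↔ (cub W).eval x ≠ 0 ∧ IsSquare ((cub W).eval x) := by simp [Sp]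
lemma mem_Sm {x : F} : x ∈ Sm W ↔ ¬ IsSquare ((cub W).eval x) := by simp [Sm]

lemma ZS_prod : ZS (S0 W) * ZS (Sp W) * ZS (Sm W) = X ^ Fintype.card F - X := by
  classical
  rw [← ZS_univ]
  have h1 : Disjoint (S0 W) (Sp W) := by
    rw [Finset.disjoint_left]; intro x; rw [mem_S0, mem_Sp]; tauto
  have h2 : Disjoint (S0 W ∪ Sp W) (Sm W) := by
    rw [Finset.disjoint_left]; intro x; rw [Finset.mem_union, mem_S0, mem_Sp, mem_Sm]
    rintro (h | h)
    · rw [h]; simp
    · tauto
  have h3 : (S0 W ∪ Sp W) ∪ Sm W = Finset.univ := by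
    ext x
    simp only [Finset.mem_union, mem_S0, mem_Sp, mem_Sm, Finset.mem_univ, iff_true]
    tauto
  rw [← h3, ZS, ZS, ZS, ZS, Finset.prod_union h2, Finset.prod_union h1]

lemma card_sum : (S0 W).card + (Sp W).card + (Sm W).card = Fintype.card F := by
  have h := congrArg natDegree (ZS_prod W)
  rw [FiniteField.X_pow_card_sub_X_natDegree_eq F Fintype.one_lt_card,
    (((ZS_monic _).mul (ZS_monic _))).natDegree_mul (ZS_monic _), 
    (ZS_monic _).natDegree_mul (ZS_monic _), ZS_natDegree, ZS_natDegree, ZS_natDegree] at h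
  exact h

omit [Fintype F] [DecidableEq F] in
lemma card_odd (h2 : (2 : F) ≠ 0) : ringChar F ≠ 2 := by
  intro h
  apply h2
  have := CharP.cast_eq_zero F (ringChar F)
  rw [h] at this
  exact_mod_cast this

omit [Fintype F] [DecidableEq F] in
lemma cub_natDegree : (cub W).natDegree = 3 := by
  rw [cub]; compute_degree!

omit [Fintype F] [DecidableEq F] in
lemma cub_ne_zero : cub W ≠ 0 := by
  intro h; have := cub_natDegree W; rw [h] at this; simp at this

/-- numerator of `x(φη-η)` -/
noncomputable def Num (W : Affine F) : F[X] :=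
  cub W * (cub W ^ (Fintype.card F / 2) + 1) ^ 2 -
    (C W.a₂ + X ^ Fintype.card F + X) * (X ^ Fintype.card F - X) ^ 2

omit [DecidableEq F] in
lemma Num_eq (h2 : (2 : F) ≠ 0) : Num W = X ^ (2 * Fintype.card F + 1) + 
    (X ^ (Fintype.card F + 2) + C (2 * W.a₂) * X ^ (Fintype.card F + 1) + 
      C W.a₄ * (X ^ Fintype.card F + X) + C (2 * W.a₆) + 2 * cub W ^ (Fintype.card F / 2 + 1)) := by
  have hq := FiniteField.odd_card_of_char_ne_two (card_odd h2)
  set q := Fintype.card F with hqdef
  obtain ⟨k, hk⟩ : ∃ k, q = 2 * k + 1 := ⟨q / 2, by omega⟩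
  have hk2 : q / 2 = k := by omega
  have h3 : cub W ^ q = X ^ (3 * q) + C W.a₂ * X ^ (2 * q) + C W.a₄ * X ^ q + C W.a₆ := by
    rw [hqdef, ← FiniteField.expand_card, cub]
    simp only [map_add, map_mul, map_pow, expand_X, expand_C]
    rw [← pow_mul, ← pow_mul, mul_comm 3, mul_comm 2]
  have h4 : cub W * (cub W ^ k + 1) ^ 2 = cub W ^ q + 2 * cub W ^ (k + 1) + cub W := by
    rw [hk]; ring
  rw [Num, ← hqdef, hk2, h4, h3]
  have e1 : (X : F[X]) ^ (3 * q) = (X ^ q) ^ 3 := by rw [← pow_mul, mul_comm]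
  have e2 : (X : F[X]) ^ (2 * q) = (X ^ q) ^ 2 := by rw [← pow_mul, mul_comm]
  have e3 : (X : F[X]) ^ (2 * q + 1) = (X ^ q) ^ 2 * X := by rw [pow_succ, e2]
  have e4 : (X : F[X]) ^ (q + 2) = (X ^ q) * X ^ 2 := by rw [pow_add]
  have e5 : (X : F[X]) ^ (q + 1) = (X ^ q) * X := by rw [pow_succ]
  rw [e1, e2, e3, e4, e5]
  simp only [cub, C_mul, map_ofNat]
  ring

omit [DecidableEq F] in
lemma Num_monic (h2 : (2 : F) ≠ 0) : (Num W).Monic ∧ 
    (Num W).natDegree = 2 * Fintype.card F + 1 := by
  have hq := FiniteField.odd_card_of_char_ne_two (card_odd h2)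
  have hq1 : 1 < Fintype.card F := Fintype.one_lt_card
  rw [Num_eq W h2]
  set q := Fintype.card F with hqdef
  obtain ⟨k, hk⟩ : ∃ k, q = 2 * k + 1 := ⟨q / 2, by omega⟩
  have hk2 : q / 2 = k := by omega
  rw [hk2]
  have hd : (X ^ (q + 2) + C (2 * W.a₂) * X ^ (q + 1) + 
      C W.a₄ * (X ^ q + X) + C (2 * W.a₆) + 2 * cub W ^ (k + 1)).natDegree ≤ 2 * q := by
    have h1 : (X ^ (q + 2) + C (2 * W.a₂) * X ^ (q + 1) + 
      C W.a₄ * (X ^ q + X) + C (2 * W.a₆)).natDegree ≤ 2 * q := by
      compute_degree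
      all_goals omega
    have h3 : (2 * cub W ^ (k + 1)).natDegree ≤ 2 * q := by
      rw [← map_ofNat C]
      refine (natDegree_C_mul_le _ _).trans ?_
      refine (natDegree_pow_le_of_le _ (cub_natDegree W).le).trans ?_
      omega
    simpa using natDegree_add_le_of_le h1 h3
  have hlt : (X ^ (q + 2) + C (2 * W.a₂) * X ^ (q + 1) + 
      C W.a₄ * (X ^ q + X) + C (2 * W.a₆) + 2 * cub W ^ (k + 1)).degree < 
      ((2 * q + 1 : ℕ) : WithBot ℕ) := by
    refine lt_of_le_of_lt (degree_le_of_natDegree_le hd) ?_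
    exact_mod_cast Nat.lt_succ_self _
  constructor
  · exact monic_X_pow_add hlt
  · rw [add_comm]
    apply natDegree_eq_of_degree_eq_some
    rw [degree_add_eq_right_of_degree_lt]
    · simp
    · simpa using hlt

omit [Fintype F] [DecidableEq F] in
lemma derivative_cub_eval (x : F) : (derivative (cub W)).eval x = 3 * x ^ 2 + 2 * W.a₂ * x + W.a₄ := by
  simp [cub]; ring

/-- The reduced form `A / B` of `x(φη - η)`. -/
theorem exists_AB [W.IsElliptic] (h1 : W.a₁ = 0) (h3 : W.a₃ = 0) (h2 : (2 : F) ≠ 0) :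
    ∃ A B D : F[X], A.natDegree = 1 + 2 * (Sp W).card + (S0 W).card ∧ 
      B.natDegree = 2 * (Sp W).card + (S0 W).card ∧ IsCoprime A B ∧ A ≠ 0 ∧ B ≠ 0 ∧ 
      D * A = Num W ∧ D * B = (X ^ Fintype.card F - X) ^ 2 ∧ B ∣ (X ^ Fintype.card F - X) ^ 2 := by
  have hchar := card_odd h2
  set q := Fintype.card F with hqdef
  have hf0 := cub_ne_zero W
  obtain ⟨f₁, hf₁⟩ : ZS (S0 W) ∣ cub W := ZS_dvd hf0 fun x hx => (mem_S0 W).mp hx
  have hg0 : cub W ^ (q / 2) + 1 ≠ 0 := by
    have hq1 : 1 < q := Fintype.one_lt_card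
    have hq := FiniteField.odd_card_of_char_ne_two hchar
    intro h
    have h' : cub W ^ (q / 2) = -1 := eq_neg_of_add_eq_zero_left h
    have := congrArg natDegree h'
    rw [natDegree_pow, cub_natDegree, natDegree_neg, natDegree_one] at this
    omega
  obtain ⟨g₁, hg₁⟩ : ZS (Sm W) ∣ cub W ^ (q / 2) + 1 := by
    refine ZS_dvd hg0 fun x hx => ?_
    rw [mem_Sm] at hx
    have hx0 : (cub W).eval x ≠ 0 := by
      intro h; apply hx; rw [h]; simp
    rw [eval_add, eval_pow, eval_one]
    rcases FiniteField.pow_dichotomy hchar hx0 with h | h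
    · exact absurd ((FiniteField.isSquare_iff hchar hx0).mpr h) hx
    · rw [← hqdef] at h; rw [h]; ring
  set B := ZS (Sp W) ^ 2 * ZS (S0 W) with hB
  set D := ZS (Sm W) ^ 2 * ZS (S0 W) with hD
  set A := f₁ * g₁ ^ 2 - (C W.a₂ + X ^ q + X) * B with hA
  have hDB : D * B = (X ^ q - X) ^ 2 := by
    rw [hqdef, ← ZS_prod W, hD, hB]; ring
  have hDA : D * A = Num W := by
    rw [Num, ← hqdef, ← hDB, hA, hg₁]
    rw [hD]
    linear_combination -(ZS (Sm W) * g₁) ^ 2 * hf₁
  have hDm : D.Monic := ((ZS_monic _).pow 2).mul (ZS_monic _)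
  have hBm : B.Monic := ((ZS_monic _).pow 2).mul (ZS_monic _)
  have hDdeg : D.natDegree = 2 * (Sm W).card + (S0 W).card := by
    rw [hD, ((ZS_monic _).pow 2).natDegree_mul (ZS_monic _), (ZS_monic _).natDegree_pow,
      ZS_natDegree, ZS_natDegree]
  have hBdeg : B.natDegree = 2 * (Sp W).card + (S0 W).card := by
    rw [hB, ((ZS_monic _).pow 2).natDegree_mul (ZS_monic _), (ZS_monic _).natDegree_pow,
      ZS_natDegree, ZS_natDegree]
  have hNum := Num_monic W h2
  have hA0 : A ≠ 0 := by
    intro h; rw [h, mul_zero] at hDA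
    exact hNum.1.ne_zero hDA.symm
  have hAdeg : A.natDegree = 1 + 2 * (Sp W).card + (S0 W).card := by
    have h := congrArg natDegree hDA
    rw [natDegree_mul hDm.ne_zero hA0, hDdeg, hNum.2, ← card_sum W] at h
    omega
  have hcop : ∀ x ∈ Sp W ∪ S0 W, A.eval x ≠ 0 := by
    intro x hx
    have hBx : B.eval x = 0 := by
      rw [Finset.mem_union] at hx
      rw [hB, eval_mul, eval_pow]
      rcases hx with h | h
      · rw [ZS_eval_eq_zero h]; ring
      · rw [ZS_eval_eq_zero h]; ring
    have hgx : (cub W ^ (q / 2) + 1).eval x ≠ 0 := by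
      rw [Finset.mem_union, mem_Sp, mem_S0] at hx
      rw [eval_add, eval_pow, eval_one]
      rcases hx with h | h
      · rw [(FiniteField.isSquare_iff hchar h.1).mp h.2]
        have : (1 : F) + 1 = 2 := by norm_num
        rw [this]; exact h2
      · have hq1 : 1 < q := Fintype.one_lt_card
        have hk : q / 2 ≠ 0 := by omega
        rw [h, zero_pow hk, zero_add]; exact one_ne_zero
    rw [hg₁, eval_mul] at hgx
    have hg1x := right_ne_zero_of_mul hgx
    have hf1x : f₁.eval x ≠ 0 := by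
      rw [Finset.mem_union, mem_Sp] at hx
      rcases hx with h | h
      · have := h.1
        rw [hf₁, eval_mul] at this
        exact right_ne_zero_of_mul this
      · intro h0
        have hd : (derivative (cub W)).eval x = 0 := by
          rw [hf₁, derivative_mul, eval_add, eval_mul, eval_mul, h0, ZS_eval_eq_zero h]; ring
        rw [derivative_cub_eval] at hd
        have hx0 := (mem_S0 W).mp h
        have hE : W.Equation x 0 := by
          rw [equation_iff]
          have : (cub W).eval x = x ^ 3 + W.a₂ * x ^ 2 + W.a₄ * x + W.a₆ := by simp [cub]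
          rw [this] at hx0
          rw [hx0, h3]; ring
        have hN := (equation_iff_nonsingular.mp hE).2
        rw [evalEval_polynomialX, evalEval_polynomialY, h1, h3, hd] at hN
        simp at hN
    rw [hA, eval_sub, eval_mul, eval_mul, hBx, eval_pow]
    simp only [mul_zero, sub_zero]
    exact mul_ne_zero hf1x (pow_ne_zero _ hg1x)
  have hAB : IsCoprime A B := by
    rw [hB]
    refine IsCoprime.mul_right (IsCoprime.pow_right ?_) ?_
    · exact isCoprime_ZS fun x hx => hcop x (Finset.mem_union_left _ hx)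
    · exact isCoprime_ZS fun x hx => hcop x (Finset.mem_union_right _ hx)
  exact ⟨A, B, D, hAdeg, hBdeg, hAB, hA0, hBm.ne_zero, hDA, hDB, ⟨D, by rw [← hDB, mul_comm]⟩⟩

/-- The number of points. -/
theorem card_points [W.IsElliptic] (h1 : W.a₁ = 0) (h3 : W.a₃ = 0) (h2 : (2 : F) ≠ 0) :
    Nat.card W.Point = 1 + 2 * (Sp W).card + (S0 W).card := by
  have hchar := card_odd h2
  have e1 : Nat.card W.Point = Nat.card {xy : F × F // W.Equation xy.fst xy.snd} + 1 := by
    rw [Nat.card_congr (pointEquiv W)]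
    exact Finite.card_option
  have e2 : Nat.card {xy : F × F // W.Equation xy.fst xy.snd} = 
      ∑ x : F, Nat.card {y : F // W.Equation x y} := by
    have e : {xy : F × F // W.Equation xy.fst xy.snd} ≃ Σ x : F, {y : F // W.Equation x y} :=
      { toFun := fun p => ⟨p.1.1, p.1.2, p.2⟩
        invFun := fun p => ⟨(p.1, p.2.1), p.2.2⟩
        left_inv := fun _ => rfl
        right_inv := fun _ => rfl }
    rw [Nat.card_congr e, Nat.card_sigma]
  have e3 : ∀ x : F, (Nat.card {y : F // W.Equation x y} : ℤ) = 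
      quadraticChar F ((cub W).eval x) + 1 := by
    intro x
    rw [← quadraticChar_card_sqrts hchar]
    have : {y : F // W.Equation x y} ≃ {y : F | y ^ 2 = (cub W).eval x} := by
      refine Equiv.subtypeEquivRight fun y => ?_
      rw [equation_iff, h1, h3]
      simp [cub]
    rw [Nat.card_congr this, Nat.card_coe_set_eq, Set.ncard_eq_toFinset_card']
  have e4 : (Nat.card W.Point : ℤ) = 1 + 2 * (Sp W).card + (S0 W).card := by
    rw [e1, e2]
    push_cast
    rw [Finset.sum_congr rfl fun x _ => e3 x]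
    have e5 : ∀ x : F, quadraticChar F ((cub W).eval x) + 1 = 
        2 * (if x ∈ Sp W then 1 else 0) + (if x ∈ S0 W then 1 else 0) := by
      intro x
      by_cases h0 : (cub W).eval x = 0
      · have hS : x ∉ Sp W := by rw [mem_Sp]; tauto
        rw [h0, if_neg hS, if_pos ((mem_S0 W).mpr h0)]; simp
      · have hS0 : x ∉ S0 W := by rw [mem_S0]; exact h0
        rw [if_neg hS0]
        by_cases hs : IsSquare ((cub W).eval x)
        · rw [if_pos ((mem_Sp W).mpr ⟨h0, hs⟩), (quadraticChar_one_iff_isSquare h0).mpr hs]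
          norm_num
        · rw [if_neg (by rw [mem_Sp]; tauto), quadraticChar_neg_one_iff_not_isSquare.mpr hs]
          norm_num
    rw [Finset.sum_congr rfl fun x _ => e5 x, Finset.sum_add_distrib, ← Finset.mul_sum]
    simp
    ring
  exact_mod_cast e4

end Fermat.Agent.FrobChar
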