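import Mathlib
import Fermat.Agent.FrobChar.OddPts
import Fermat.Agent.FrobChar.Compose
import Fermat.Agent.FrobChar.FrobPoly

set_option autoImplicit false

/-!
# The characteristic equation for the generic point
-/

namespace Fermat.Agent.FrobChar

open WeierstrassCurve WeierstrassCurve.Affine Polynomial IntermediateField

variable {F : Type*} [Field F] [Fintype F] {L : Type*} [Field L] [Algebra F L] [DecidableEq L]

/-- Frobenius on points -/
noncomputable def frobPt (W : Affine F) : (W⁄L).Point →+ (W⁄L).Point :=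
  Point.map (FiniteField.frobeniusAlgHom F L)

lemma frobPt_some (W : Affine F) {x y : L} (h : (W⁄L).Nonsingular x y) :
    ∃ h', frobPt W (Point.some x y h) = Point.some (x ^ Fintype.card F) (y ^ Fintype.card F) h' :=
  ⟨_, rfl⟩

lemma frobPt_zero (W : Affine F) : frobPt W (0 : (W⁄L).Point) = 0 := map_zero _

variable (W : Affine F)

lemma frobPt_xRep (P : (W⁄L).Point) :
    (frobPt W P).xRep = fun i => P.xRep i ^ Fintype.card F := by
  match P with
  | 0 =>
    rw [frobPt_zero]
    ext i
    fin_cases i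
    · simp
    · simp [Fintype.card_ne_zero]
  | .some x y h =>
    obtain ⟨h', e⟩ := frobPt_some W h
    rw [e]
    ext i
    fin_cases i
    · simp
    · simp

variable {t y : L}

omit [DecidableEq L] in
lemma eq_algebraMap_of_pow_card {r : L} (hr : r ^ Fintype.card F = r) :
    ∃ c : F, r = algebraMap F L c := by
  classical
  have h := congrArg (aeval r) (ZS_univ (F := F))
  rw [ZS, map_prod, map_sub, map_pow, aeval_X, hr, sub_self] at h
  obtain ⟨c, -, hc⟩ := Finset.prod_eq_zero_iff.mp h
  refine ⟨c, ?_⟩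
  rw [map_sub, aeval_X, aeval_C, sub_eq_zero] at hc
  exact hc

variable (h1 : W.a₁ = 0) (h3 : W.a₃ = 0) (h2 : (2 : F) ≠ 0) (hy : y ^ 2 = aeval t (cub W))
  (hy0 : y ≠ 0) (htr : Transcendental F t)

omit [Fintype F] [DecidableEq L] in
include h1 h3 hy hy0 htr in
/-- an odd point with constant abscissa has vanishing ordinate -/
lemma y_eq_zero_of_const {c : F} {y' : L} (h : (W⁄L).Nonsingular (algebraMap F L c) y')
    (hs : y' / y ∈ F⟮t⟯) : y' = 0 := by
  obtain ⟨u, v, huv, hv, hs⟩ := exists_coprime_of_mem hs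
  have hinj : Function.Injective (aeval (R := F) t) := transcendental_iff_injective.mp htr
  have he := (equation_iff ..).mp h.1
  simp only [baseChange_a₁, baseChange_a₂, baseChange_a₃, baseChange_a₄, baseChange_a₆, h1, h3,
    map_zero, zero_mul, add_zero] at he
  have hy' : y' = aeval t u / aeval t v * y := by
    rw [← hs]; field_simp
  have e1 : aeval t (u ^ 2 * cub W) = aeval t (C ((cub W).eval c) * v ^ 2) := by
    have e2 : y' ^ 2 * (aeval t v) ^ 2 = (aeval t u) ^ 2 * aeval t (cub W) := by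
      rw [hy', ← hy]; field_simp
    rw [map_mul, map_mul, map_pow, map_pow, ← e2, he, aeval_C]
    simp [cub]
  have e2 := hinj e1
  by_cases hu : u = 0
  · rw [hy', hu]; simp
  · exfalso
    have hv0 : v ≠ 0 := by rintro rfl; simp at hv
    by_cases hc : (cub W).eval c = 0
    · rw [hc, C_0, zero_mul] at e2
      exact (mul_ne_zero (pow_ne_zero _ hu) (cub_ne_zero W)) e2
    · have := congrArg natDegree e2
      rw [natDegree_mul (pow_ne_zero _ hu) (cub_ne_zero W), natDegree_pow, cub_natDegree,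
        natDegree_C_mul hc, natDegree_pow] at this
      omega

include h2 hy hy0 in
lemma isOddPt_frobPt {P : (W⁄L).Point} (hP : IsOddPt W t y P) : IsOddPt W t y (frobPt W P) := by
  match P, hP with
  | 0, _ => rw [frobPt_zero]; trivial
  | .some x' y' h, hP =>
    obtain ⟨h', e⟩ := frobPt_some W h
    rw [e]
    refine ⟨pow_mem hP.1 _, ?_⟩
    have hq := FiniteField.odd_card_of_char_ne_two (card_odd h2)
    obtain ⟨k, hk⟩ : ∃ k, Fintype.card F = 2 * k + 1 := ⟨Fintype.card F / 2, by omega⟩
    have e : y' ^ Fintype.card F / y = (y' / y) ^ Fintype.card F * aeval t (cub W ^ k) := by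
      have hyk : y ^ (2 * k + 1) = y * (y ^ 2) ^ k := by rw [← pow_mul]; ring
      rw [map_pow, ← hy, hk, div_pow, hyk]
      field_simp
    rw [e]
    exact mul_mem (pow_mem hP.2 _) (aeval_mem_adjoin t _)

omit [Fintype F] [DecidableEq L] in
lemma hasHt_const (c : F) : HasHt (F := F) t ![algebraMap F L c, 1] 0 := by
  refine ⟨![C c, 1], prim_of_isCoprime isCoprime_one_right, ⟨?_, 1, by simp⟩, 1, one_ne_zero, ?_⟩
  · intro i; fin_cases i <;> simp
  · intro i; fin_cases i <;> simp

include h1 h3 h2 hy hy0 htr in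
/-- The height of `φP - P`. -/
lemma hasHt_frob_sub [WeierstrassCurve.IsElliptic W] {P : (W⁄L).Point} (hP : IsOddPt W t y P)
    {d : ℕ} (hd : HasHt (F := F) t P.xRep d) :
    HasHt (F := F) t (frobPt W P - P).xRep (Nat.card W.Point * d) := by
  classical
  match P, hP, hd with
  | 0, _, hd =>
    rw [frobPt_zero, sub_zero]
    have : d = 0 := hd.unique htr (hasHt_zero t)
    rw [this, mul_zero]
    exact hasHt_zero t
  | .some r y' h, hP, hd =>
    obtain ⟨h', e⟩ := frobPt_some W h
    rw [e]
    set q := Fintype.card F with hqdef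
    by_cases hr : r ^ q = r
    · obtain ⟨c, rfl⟩ := eq_algebraMap_of_pow_card hr
      have hy'0 := y_eq_zero_of_const W h1 h3 hy hy0 htr h hP.2
      have hd0 : d = 0 := hd.unique htr (hasHt_const c)
      have : Point.some (algebraMap F L c ^ q) (y' ^ q) h' = Point.some (algebraMap F L c) y' h := by
        rw [Point.some.injEq]
        refine ⟨hr, ?_⟩
        rw [hy'0, zero_pow Fintype.card_ne_zero]
      rw [this, sub_self, hd0, mul_zero]
      exact hasHt_zero t
    · obtain ⟨A, B, D, hA, hB, hAB, hA0, hB0, hDA, hDB, hBdvd⟩ := exists_AB W h1 h3 h2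
      rw [sub_eq_add_neg, Point.neg_some, Point.add_of_X_ne hr, Point.xRep_some]
      have hrr : r ^ q - r ≠ 0 := sub_ne_zero.mpr hr
      have hDBr : aeval r D * aeval r B = (r ^ q - r) ^ 2 := by
        rw [← map_mul, hDB]; simp [hqdef]
      have hDr : aeval r D ≠ 0 := by
        intro h0; rw [h0, zero_mul] at hDBr
        exact (pow_ne_zero 2 hrr) hDBr.symm
      have hBr : aeval r B ≠ 0 := by
        intro h0; rw [h0, mul_zero] at hDBr
        exact (pow_ne_zero 2 hrr) hDBr.symm
      have hxeq : (W⁄L).addX (r ^ q) r ((W⁄L).slope (r ^ q) r (y' ^ q) ((W⁄L).negY r y')) =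
          aeval r A / aeval r B := by
        have h5 : aeval r A / aeval r B = aeval r (Num W) / (r ^ q - r) ^ 2 := by
          rw [← hDBr, ← hDA, map_mul, mul_div_mul_left _ _ hDr]
        rw [h5, slope_of_X_ne hr, addX]
        have he := (equation_iff ..).mp h.1
        simp only [baseChange_a₁, baseChange_a₂, baseChange_a₃, baseChange_a₄, baseChange_a₆, h1,
          h3, map_zero, zero_mul, add_zero] at he
        have hq := FiniteField.odd_card_of_char_ne_two (card_odd h2)
        obtain ⟨k, hk⟩ : ∃ k, q = 2 * k + 1 := ⟨q / 2, by omega⟩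
        have hk2 : q / 2 = k := by omega
        have hcub : aeval r (cub W) = y' ^ 2 := by rw [he, aeval_cub]
        have hNum : aeval r (Num W) = y' ^ 2 * ((y' ^ 2) ^ k + 1) ^ 2 - 
            (algebraMap F L W.a₂ + r ^ q + r) * (r ^ q - r) ^ 2 := by
          rw [Num, ← hqdef, hk2]
          simp [hcub]
        have hyq : y' ^ q = y' * (y' ^ 2) ^ k := by rw [hk, ← pow_mul]; ring
        rw [hNum, hyq]
        simp only [baseChange_a₁, baseChange_a₂, negY, baseChange_a₃, h1, h3, map_zero, zero_mul]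
        field_simp
        ring
      rw [hxeq]
      have hN : A.natDegree = Nat.card W.Point := by rw [hA, card_points W h1 h3 h2]
      exact HasHt.comp hd hN (by rw [← hN, hA, hB]; omega) hAB hA0 hBr

omit [Fintype F] [DecidableEq L] in
include htr in
lemma HasHt.ht_eq {P : (W⁄L).Point} (hP : IsOddPt W t y P) {d : ℕ}
    (hd : HasHt (F := F) t P.xRep d) : ht W t P = d :=
  (hasHt_ht W hP).unique htr hd

/-- The restriction of Frobenius to the group of odd points. -/
noncomputable def frobOdd (h1 : W.a₁ = 0) (h3 : W.a₃ = 0) (h2 : (2 : F) ≠ 0)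
    (hy : y ^ 2 = aeval t (cub W)) (hy0 : y ≠ 0) :
    oddPts W h1 h3 hy hy0 →+ oddPts W h1 h3 hy hy0 :=
  ((frobPt W).comp (oddPts W h1 h3 hy hy0).subtype).codRestrict _ fun P =>
    isOddPt_frobPt W h2 hy hy0 P.2

include h1 h3 h2 hy hy0 htr in
/-- The characteristic equation in terms of heights. -/
theorem ht_char_eq [WeierstrassCurve.IsElliptic W] {P : (W⁄L).Point} (hP : IsOddPt W t y P) :
    IsOddPt W t y (frobPt W (frobPt W P) -
      ((Fintype.card F : ℤ) + 1 - (Nat.card W.Point : ℤ)) • frobPt W P + (Fintype.card F : ℤ) • P) ∧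
    ht W t (frobPt W (frobPt W P) -
      ((Fintype.card F : ℤ) + 1 - (Nat.card W.Point : ℤ)) • frobPt W P + 
        (Fintype.card F : ℤ) • P) = 0 := by
  set G := oddPts W h1 h3 hy hy0 with hG
  set φ := frobOdd W h1 h3 h2 hy hy0 with hφ
  set q : ℤ := (Fintype.card F : ℤ) with hq
  set N : ℤ := (Nat.card W.Point : ℤ) with hN
  let h : G → ℤ := fun P => (ht W t (P : (W⁄L).Point) : ℤ)
  have hp : ∀ P Q : G, h (P + Q) + h (P - Q) = 2 * h P + 2 * h Q := by
    intro P Q
    have := ht_parallelogram W h1 h3 hy hy0 htr P Q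
    have h8 : ((ht W t ((P + Q : G) : (W⁄L).Point) + ht W t ((P - Q : G) : (W⁄L).Point) : ℕ) : ℤ) = 
      ((2 * ht W t (P : (W⁄L).Point) + 2 * ht W t (Q : (W⁄L).Point) : ℕ) : ℤ) :=
      congrArg _ this
    push_cast at h8
    exact h8
  have hcoe : ∀ P : G, ((φ P : G) : (W⁄L).Point) = frobPt W (P : (W⁄L).Point) := fun P => rfl
  have h1' : ∀ P : G, h (φ P) = q * h P := by
    intro P
    have hd := hasHt_ht W P.2
    have h4 := hd.pow (Fintype.card F)
    have h5 : HasHt (F := F) t (frobPt W (P : (W⁄L).Point)).xRep 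
        (Fintype.card F * ht W t (P : (W⁄L).Point)) := by
      rw [frobPt_xRep]; exact h4
    have h6 := h5.ht_eq W htr (φ P).2
    change (ht W t ((φ P : G) : (W⁄L).Point) : ℤ) = _
    rw [h6]
    push_cast
    rfl
  have h2' : ∀ P : G, h (φ P - P) = N * h P := by
    intro P
    have hd := hasHt_ht W P.2
    have h5 := hasHt_frob_sub W h1 h3 h2 hy hy0 htr P.2 hd
    have h6 := h5.ht_eq W htr (φ P - P).2
    change (ht W t ((φ P - P : G) : (W⁄L).Point) : ℤ) = _
    rw [h6]
    push_cast
    rfl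
  have key := char_eq_of_para h hp φ q N h1' h2' ⟨P, hP⟩
  have h7 : ((φ (φ ⟨P, hP⟩) - (q + 1 - N) • φ ⟨P, hP⟩ + q • ⟨P, hP⟩ : G) : (W⁄L).Point) = 
      frobPt W (frobPt W P) - (q + 1 - N) • frobPt W P + q • P := by
    simp [hcoe]
  constructor
  · rw [← h7]; exact (φ (φ ⟨P, hP⟩) - (q + 1 - N) • φ ⟨P, hP⟩ + q • ⟨P, hP⟩ : G).2
  · rw [← h7]; exact Int.natCast_eq_zero.mp key

omit [Fintype F] in
include h1 h3 hy hy0 htr in
/-- odd points of height zero are 2-torsion -/
lemma two_smul_eq_zero_of_ht {P : (W⁄L).Point} (hP : IsOddPt W t y P) (h0 : ht W t P = 0) :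
    (2 : ℤ) • P = 0 := by
  have hd := hasHt_ht W hP
  rw [h0] at hd
  match P, hP, hd with
  | 0, _, _ => simp
  | .some r y' h, hP, hd =>
    obtain ⟨p, hp, hd, c, hc, hz⟩ := hd
    have hz0 : r = c * aeval t (p 0) := by simpa using hz 0
    have hz1 : 1 = c * aeval t (p 1) := by simpa using hz 1
    obtain ⟨a, ha⟩ : ∃ a, p 0 = C a := ⟨_, eq_C_of_natDegree_le_zero (hd.1 0)⟩
    obtain ⟨b, hb⟩ : ∃ b, p 1 = C b := ⟨_, eq_C_of_natDegree_le_zero (hd.1 1)⟩
    rw [ha, aeval_C] at hz0
    rw [hb, aeval_C] at hz1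
    have hb0 : algebraMap F L b ≠ 0 := by
      intro h; rw [h, mul_zero] at hz1; exact one_ne_zero hz1
    have hr : r = algebraMap F L (a / b) := by
      rw [map_div₀, eq_div_iff hb0, hz0]
      linear_combination (-algebraMap F L a) * hz1
    subst hr
    have hy'0 := y_eq_zero_of_const W h1 h3 hy hy0 htr h hP.2
    rw [two_zsmul]
    apply Point.add_self_of_Y_eq
    simp [negY, hy'0, h1, h3]

include h1 h3 h2 hy hy0 htr in
/-- Twice the characteristic equation for odd points. -/
theorem two_smul_char_eq [WeierstrassCurve.IsElliptic W] {P : (W⁄L).Point} 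
    (hP : IsOddPt W t y P) : (2 : ℤ) • (frobPt W (frobPt W P) -
      ((Fintype.card F : ℤ) + 1 - (Nat.card W.Point : ℤ)) • frobPt W P + 
        (Fintype.card F : ℤ) • P) = 0 := by
  obtain ⟨hodd, hht⟩ := ht_char_eq W h1 h3 h2 hy hy0 htr hP
  exact two_smul_eq_zero_of_ht W h1 h3 hy hy0 htr hodd hht

end Fermat.Agent.FrobChar
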