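import Mathlib
import Fermat.Agent.FrobChar.Generic

set_option autoImplicit false

/-!
# Frobenius satisfies its characteristic equation
-/

namespace Fermat.Agent.FrobChar

open WeierstrassCurve WeierstrassCurve.Affine Polynomial IntermediateField

section naturality

variable {F : Type*} [Field F] [Fintype F] {L : Type*} [Field L] [Algebra F L] [DecidableEq L]
  {M : Type*} [Field M] [Algebra F M] [DecidableEq M] (W : Affine F)

lemma map_frobPt (τ : L →ₐ[F] M) (P : (W⁄L).Point) :
    Point.map τ (frobPt W P) = frobPt W (Point.map τ P) := by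
  rw [frobPt, frobPt, Point.map_map, Point.map_map]
  have : τ.comp (FiniteField.frobeniusAlgHom F L) = (FiniteField.frobeniusAlgHom F M).comp τ := by
    ext x
    rw [AlgHom.comp_apply, AlgHom.comp_apply, FiniteField.coe_frobeniusAlgHom,
      FiniteField.coe_frobeniusAlgHom, map_pow]
  rw [this]

/-- twice the characteristic polynomial of Frobenius evaluated at Frobenius -/
noncomputable def Theta (P : (W⁄L).Point) : (W⁄L).Point :=
  (2 : ℤ) • (frobPt W (frobPt W P) -
      ((Fintype.card F : ℤ) + 1 - (Nat.card W.Point : ℤ)) • frobPt W P + 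
        (Fintype.card F : ℤ) • P)

lemma Theta_add (P Q : (W⁄L).Point) : Theta W (P + Q) = Theta W P + Theta W Q := by
  simp only [Theta, map_add, smul_add, smul_sub]
  abel

lemma Theta_zero : Theta W (0 : (W⁄L).Point) = 0 := by
  have := Theta_add W (0 : (W⁄L).Point) 0
  simpa using this

lemma Theta_neg (P : (W⁄L).Point) : Theta W (-P) = -Theta W P := by
  rw [eq_neg_iff_add_eq_zero, ← Theta_add, neg_add_cancel, Theta_zero]

lemma map_Theta (τ : L →ₐ[F] M) (P : (W⁄L).Point) :
    Point.map τ (Theta W P) = Theta W (Point.map τ P) := by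
  simp only [Theta, map_add, map_sub, map_zsmul, map_frobPt]

end naturality

/-- the big field -/
abbrev BigL (F : Type*) [Field F] := AlgebraicClosure (RatFunc F)

/-- the transcendental element -/
noncomputable def tt (F : Type*) [Field F] : BigL F := algebraMap (RatFunc F) (BigL F) RatFunc.X

lemma tt_transcendental (F : Type*) [Field F] : Transcendental F (tt F) := by
  rw [tt, transcendental_algebraMap_iff (algebraMap (RatFunc F) (BigL F)).injective]
  exact RatFunc.transcendental_X

lemma exists_algHom_tt {F : Type*} [Field F] {t' : BigL F} (ht' : Transcendental F t') :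
    ∃ τ : BigL F →ₐ[F] BigL F, τ (tt F) = t' := by
  let σ : RatFunc F →ₐ[F] BigL F := 
    (IntermediateField.val _).comp (RatFunc.algEquivOfTranscendental t' ht').toAlgHom
  obtain ⟨τ, hτ⟩ := IsAlgClosed.surjective_domRestrict_of_isAlgebraic (K := F) (L := RatFunc F) 
    (M := BigL F) (E := BigL F) σ
  refine ⟨τ, ?_⟩
  have h := DFunLike.congr_fun hτ (RatFunc.X : RatFunc F)
  have h2 : σ RatFunc.X = t' := by
    simp [σ]
  rw [← h2, ← h]
  rfl

variable {F : Type*} [Field F] [Fintype F] [DecidableEq (BigL F)] (W : Affine F)
  [WeierstrassCurve.IsElliptic W]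

section

variable (h1 : W.a₁ = 0) (h3 : W.a₃ = 0) (h2 : (2 : F) ≠ 0)

include h1 h3 h2

/-- The generic case. -/
lemma Theta_generic : ∀ (t' y' : BigL F) (h : (W⁄(BigL F)).Nonsingular t' y'), 
    Transcendental F t' → Theta W (Point.some t' y' h) = 0 := by
  intro t' y' h ht'
  have he := (equation_iff ..).mp h.1
  simp only [baseChange_a₁, baseChange_a₂, baseChange_a₃, baseChange_a₄, baseChange_a₆, h1, h3,
    map_zero, zero_mul, add_zero] at he
  have hy : y' ^ 2 = aeval t' (cub W) := by rw [he, aeval_cub]
  have hy0 : y' ≠ 0 := by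
    rintro rfl
    apply ht'
    refine ⟨cub W, cub_ne_zero W, ?_⟩
    rw [← hy]; ring
  refine two_smul_char_eq W h1 h3 h2 hy hy0 ht' (P := Point.some t' y' h) ⟨?_, ?_⟩
  · exact mem_adjoin_simple_self F t'
  · rw [div_self hy0]; exact one_mem _

/-- the characteristic equation on the big field -/
theorem Theta_bigL (P : (W⁄(BigL F)).Point) : Theta W P = 0 := by
  classical
  match P with
  | 0 => exact Theta_zero W
  | .some x₀ y₀ h₀ =>
    by_cases htr : Transcendental F x₀
    · exact Theta_generic W h1 h3 h2 _ _ h₀ htr
    · -- algebraic case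
      have hellip : WeierstrassCurve.IsElliptic (W⁄(BigL F)) := by
        change WeierstrassCurve.IsElliptic (W.map (algebraMap F (BigL F)))
        infer_instance
      obtain ⟨y, hy⟩ : ∃ y : BigL F, y ^ 2 = aeval (tt F) (cub W) := by
        obtain ⟨y, hy⟩ := IsAlgClosed.exists_pow_nat_eq (aeval (tt F) (cub W)) (n := 2) (by norm_num)
        exact ⟨y, hy⟩
      have hE : (W⁄(BigL F)).Equation (tt F) y := by
        rw [equation_iff]
        simp only [baseChange_a₁, baseChange_a₂, baseChange_a₃, baseChange_a₄, baseChange_a₆, h1, 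
          h3, map_zero, zero_mul, add_zero]
        rw [hy, aeval_cub]
      have hN := equation_iff_nonsingular.mp hE
      set η : (W⁄(BigL F)).Point := Point.some (tt F) y hN with hη
      set P₀ : (W⁄(BigL F)).Point := Point.some x₀ y₀ h₀ with hP₀
      -- the subgroup of algebraic points
      let M : IntermediateField F (BigL F) := algebraicClosure F (BigL F)
      have hM : ∀ (x y : BigL F) (h : (W⁄(BigL F)).Nonsingular x y), ¬ Transcendental F x → 
          ∃ Q : (W⁄M).Point, Point.map (M.val) Q = Point.some x y h := by
        intro x y h hx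
        have hxa : IsAlgebraic F x := by
          rw [Transcendental, not_not] at hx; exact hx
        have he := (equation_iff ..).mp h.1
        simp only [baseChange_a₁, baseChange_a₂, baseChange_a₃, baseChange_a₄, baseChange_a₆, h1, 
          h3, map_zero, zero_mul, add_zero] at he
        have hxM : x ∈ M := (mem_algebraicClosure_iff).mpr hxa
        have hya : IsAlgebraic F y := by
          have : IsAlgebraic F (y ^ 2) := by
            rw [he]
            refine (mem_algebraicClosure_iff).mp ?_
            have halg : ∀ a : F, algebraMap F (BigL F) a ∈ M := fun a => 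
              _root_.algebraMap_mem M a
            exact add_mem (add_mem (add_mem (pow_mem hxM 3) (mul_mem (halg _) (pow_mem hxM 2)))
              (mul_mem (halg _) hxM)) (halg _)
          exact this.of_pow (by norm_num)
        have hyM : y ∈ M := (mem_algebraicClosure_iff).mpr hya
        have hns : (W⁄M).Nonsingular ⟨x, hxM⟩ ⟨y, hyM⟩ := 
          (W.baseChange_nonsingular (f := M.val) M.val.injective _ _).mp h
        exact ⟨Point.some _ _ hns, rfl⟩
      have halgM : ∀ Q : (W⁄M).Point, ∀ (x y : BigL F) (h : (W⁄(BigL F)).Nonsingular x y), 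
          Point.map (M.val) Q = Point.some x y h → ¬ Transcendental F x := by
        intro Q x y h hQ
        match Q with
        | 0 => exact absurd hQ.symm (Point.some_ne_zero _)
        | .some x' y' h' => 
          have : M.val x' = x := by
            have := hQ
            rw [Point.map_some, Point.some.injEq] at this
            exact this.1
          rw [← this, Transcendental, not_not]
          exact (mem_algebraicClosure_iff).mp x'.2
      obtain ⟨Q₀, hQ₀⟩ := hM x₀ y₀ h₀ htr
      have key : Theta W (η + P₀) = 0 := by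
        match hsum : η + P₀ with
        | 0 => exact Theta_zero W
        | .some t' y' h' =>
          refine Theta_generic W h1 h3 h2 _ _ h' ?_
          by_contra hcon
          obtain ⟨Q₁, hQ₁⟩ := hM t' y' h' hcon
          have hη' : Point.map (M.val) (Q₁ - Q₀) = η := by
            rw [map_sub, hQ₁, hQ₀, ← hsum, ← hP₀, add_sub_cancel_right]
          exact halgM _ _ _ _ hη' (tt_transcendental F)
      have key2 : Theta W η = 0 := Theta_generic W h1 h3 h2 _ _ hN (tt_transcendental F)
      rw [Theta_add, key2, zero_add] at key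
      exact key

end

omit [DecidableEq (BigL F)] in
/-- **Frobenius satisfies its characteristic equation** (up to a factor `2`) on the points over any
algebraic extension of the finite field `F`. -/
theorem frobenius_char_eq (h1 : W.a₁ = 0) (h3 : W.a₃ = 0) (h2 : (2 : F) ≠ 0)
    {M : Type*} [Field M] [Algebra F M] [Algebra.IsAlgebraic F M] 
    [DecidableEq M] (P : (W⁄M).Point) : 
    (2 : ℤ) • (frobPt W (frobPt W P) -
      ((Fintype.card F : ℤ) + 1 - (Nat.card W.Point : ℤ)) • frobPt W P + 
        (Fintype.card F : ℤ) • P) = 0 := by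
  classical
  let τ : M →ₐ[F] BigL F := IsAlgClosed.lift
  have h := Theta_bigL W h1 h3 h2 (Point.map τ P)
  rw [← map_Theta] at h
  exact (Point.map_injective τ) (h.trans (map_zero _).symm)

omit [DecidableEq (BigL F)] in
/-- Frobenius satisfies its characteristic equation on points of odd order. -/
theorem frobenius_char_eq_of_odd (h1 : W.a₁ = 0) (h3 : W.a₃ = 0) (h2 : (2 : F) ≠ 0)
    {M : Type*} [Field M] [Algebra F M] [Algebra.IsAlgebraic F M] 
    [DecidableEq M] {m : ℤ} (hm : Odd m) (P : (W⁄M).Point) (hP : m • P = 0) : 
    frobPt W (frobPt W P) - ((Fintype.card F : ℤ) + 1 - (Nat.card W.Point : ℤ)) • frobPt W P + 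
        (Fintype.card F : ℤ) • P = 0 := by
  set Q := frobPt W (frobPt W P) - ((Fintype.card F : ℤ) + 1 - (Nat.card W.Point : ℤ)) • 
    frobPt W P + (Fintype.card F : ℤ) • P with hQ
  have h := frobenius_char_eq W h1 h3 h2 P
  rw [← hQ] at h
  have hmQ : m • Q = 0 := by
    rw [hQ, smul_add, smul_sub, ← map_zsmul, ← map_zsmul, hP, smul_comm m, ← map_zsmul, hP,
      smul_comm m, hP]
    simp
  obtain ⟨k, rfl⟩ := hm
  rw [add_smul, mul_comm, mul_smul, h, smul_zero, zero_add, one_smul] at hmQ
  exact hmQ

end Fermat.Agent.FrobChar
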